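/-
ROW 38, piece EPEU-MULT (helper68): INTERFACE.   Notes: NOTES/R38-EPM.md.

GOAL `StmtEpmFrey` (= `StmtEPeuFrey` of the S44 glue, helper44): for ANY integral model `W` of the
Frey curve with `p ∣ abc` (multiplicative reduction at `p`, `v_p(Δ) ≡ 0 mod p`), the peu ramifié
subgroup of a place `A` over `p` acts trivially on `E[p]`.

ROUTE (no Tate uniformisation): `E[p]` has a Hopf lattice over `ℤ_(p)`; then `R38.r38ep_core`
(landed, abstract in the module `M`) gives the statement.  The Hopf lattice comes, as in the case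
of good reduction (`EC/Flat`, `W1/ChartToLocal.lean`), from the kernel of reduction `E₁` with the
chart `z = -x/y`; but for multiplicative reduction the field `lift` of `W1.KernelChart` holds only
for `p`-torsion points (the Néron component of a point of `E[m]` is rational iff `m ∣ v(Δ)`), so:

* `EpmChartAt A J J1 g z n` : `W1.KernelChart` with `lift` only for points killed by `n`;
* `StmtEpmCTL`   (EPM-CTL) : `EpmChartAt … n` ⇒ local Hopf lattice on `J[n]`
                  (copy of the `hK`-dependent lemmas of `W1/ChartToLocal.lean`; `hK.lift` is used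
                  there only through `ctl_torsion hn`, i.e. for points of `J[n]`);
* `StmtEpmFreyChart` (EPM-LIFT) : the Frey curve over `ℚ̄` has an `EpmChartAt … P.p` at every
                  place over `P.p ∣ abc`  (tropical step of S05 + `key_node`/`key_nonsing` +
                  Teichmüller representatives);
* `StmtEpmAsm`   (EPM-ASM) : `StmtEpmCTL → StmtEpmFreyChart → StmtEpmFrey`
                  (transport of the chart along `EC.vc_transport`, then a copy of `stmtEPeu_of`).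
-/
import Fermat.Agent.R38.Plan
import Fermat.Agent.W1.PlanAlg
import Fermat.Prelude.Def_FLTPrelim_FreyPackage
import Fermat.Prelude.Def_FLTPrelim_Modularity

set_option autoImplicit false

noncomputable section

namespace Fermat.Agent.R38

open ExtCitation Fermat.Agent.W1
open scoped WeierstrassCurve.Affine

/-- `W1.KernelChart`, with the lifting property only for the points killed by `n`. -/
structure EpmChartAt (A : ValuationSubring Qb) (J : Type) [AddCommGroup J]
    [DistribMulAction (Qb ≃ₐ[ℚ] Qb) J]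
    (J1 : AddSubgroup J) (g : ℕ) (z : J → Fin g → Qb) (n : ℕ) : Prop where
  decomp_stable : ∀ σ ∈ A.decompositionSubgroup ℚ, ∀ x ∈ J1, σ • x ∈ J1
  mem_nonunits : ∀ x ∈ J1, ∀ i, z x i ∈ A.nonunits
  injOn : ∀ x ∈ J1, ∀ y ∈ J1, z x = z y → x = y
  inertia_equivariant : ∀ σ ∈ A.inertiaSubgroupIn ℚ, ∀ x ∈ J1, ∀ i, z (σ • x) i = σ (z x i)
  add_approx : ∀ ϖ ∈ A.nonunits, ϖ ≠ 0 → ∀ m : ℕ,
    ∃ F : Fin g → MvPolynomial (Fin g ⊕ Fin g) Qb,
      (∀ i c, (F i).coeff c ∈ A) ∧
      ∀ x ∈ J1, ∀ y ∈ J1, (∀ i, ∃ a ∈ A, z x i = ϖ * a) → (∀ i, ∃ a ∈ A, z y i = ϖ * a) →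
        ∀ i, ∃ a ∈ A, z (x + y) i - MvPolynomial.eval (Sum.elim (z x) (z y)) (F i) = ϖ ^ m * a
  lift : ∀ x : J, n • x = 0 →
    ∃ b : J, (∀ σ ∈ A.inertiaSubgroupIn ℚ, σ • b = b) ∧ x - b ∈ J1

/-- **EPM-CTL**: a kernel chart at `n` gives a local Hopf lattice on `J[n]`. -/
def StmtEpmCTL : Prop :=
  ∀ (p : ℕ) (_ : p.Prime) (A : ValuationSubring Qb) (_ : A.LiesOverPrime p)
    (J : Type) (_ : AddCommGroup J) (_ : DistribMulAction (Qb ≃ₐ[ℚ] Qb) J)
    (J1 : AddSubgroup J) (g : ℕ) (z : J → Fin g → Qb) (n : ℕ),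
    EpmChartAt A J J1 g z n → 0 < n → Finite (Submodule.torsionBy ℤ J (n : ℤ)) →
      IsContAction (torsAct J (n : ℤ)) →
      ∃ Ht : Subalgebra A (Submodule.torsionBy ℤ J (n : ℤ) → Qb),
        IsLocalHopfLattice A (torsAct J (n : ℤ)) Ht

/-- **EPM-LIFT**: the kernel chart of the Frey curve at a prime `p ∣ abc`. -/
def StmtEpmFreyChart : Prop :=
  ∀ (P : FreyPackage), (P.p : ℤ) ∣ P.a * P.b * P.c →
    ∀ A : ValuationSubring Qb, A.LiesOverPrime P.p →
      ∃ (J1 : AddSubgroup (P.freyCurve⁄Qb).Point) (z : (P.freyCurve⁄Qb).Point → Fin 1 → Qb),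
        EpmChartAt A (P.freyCurve⁄Qb).Point J1 1 z P.p

/-- **EPEU-MULT** (the Prop consumed by the S44 glue; identical to helper44's `StmtEPeuFrey`). -/
def StmtEpmFrey : Prop :=
  ∀ (P : FreyPackage) (W : WeierstrassCurve ℤ), W.IsIntegralModelOf P.freyCurve →
    (P.p : ℤ) ∣ P.a * P.b * P.c →
    haveI : Fact P.p.Prime := ⟨P.pp⟩
    ∀ A : ValuationSubring Qb, A.LiesOverPrime P.p →
      (∀ σ ∈ A.inertiaSubgroupIn ℚ, ∀ τ ∈ A.inertiaSubgroupIn ℚ, ∀ x : ETors W P.p,
        τ • (σ • x - x) = cycloExp P.p τ • (σ • x - x)) →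
      ∀ σ ∈ peuSubgroup A P.p, ∀ x : ETors W P.p, σ • x = x

/-- **EPM-ASM**. -/
def StmtEpmAsm : Prop := StmtEpmCTL → StmtEpmFreyChart → StmtEpmFrey

end Fermat.Agent.R38

end
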