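/-
ROW 38, piece EPEU-MULT / EPM-ASM (helper64): ASSEMBLY.

`stmtEpmAsm : StmtEpmAsm`  (= `StmtEpmCTL → StmtEpmFreyChart → StmtEpmFrey`).

* `epmasm_chart_transport` : transport of an `EpmChartAt` along an equivariant isomorphism;
* `epmasm_Δ_ne_zero`       : an integral model of the Frey curve has nonzero discriminant;
* `epmasm_of_lattice`      : the second half of `stmtEPeu_of` (R38/EPeu.lean), for ANY integral
                             Weierstrass curve `W` with `Δ ≠ 0` whose `E[p]` has a Hopf lattice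
                             over `ℤ_(p)`: toric hypothesis at `A` ⇒ the peu ramifié subgroup of
                             `A` acts trivially on `E[p]`;
* `stmtEpmAsm`.
-/
import Fermat.Agent.R38.EPM.Plan
import Fermat.Agent.R38.EPeuFinal
import Fermat.Agent.EC.VarChange
import Fermat.Agent.S13.Torsion

set_option autoImplicit false
set_option linter.unusedSectionVars false
set_option linter.style.haveILetI false

noncomputable section

namespace Fermat.Agent.R38

open Fermat.Agent.PT Fermat.Agent.PT.B Fermat.Agent.TW.L Fermat.Agent.TW.W Fermat.Agent.W1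
  ExtCitation GaloisRep
open scoped Pointwise WeierstrassCurve.Affine

/-- **Transport of a chart** along an equivariant isomorphism. -/
theorem epmasm_chart_transport {A : ValuationSubring Qb} {J J' : Type} [AddCommGroup J]
    [AddCommGroup J'] [DistribMulAction (Qb ≃ₐ[ℚ] Qb) J] [DistribMulAction (Qb ≃ₐ[ℚ] Qb) J']
    (e : J ≃+ J') (he : ∀ (σ : Qb ≃ₐ[ℚ] Qb) (x : J), e (σ • x) = σ • e x)
    {J1 : AddSubgroup J} {g : ℕ} {z : J → Fin g → Qb} {n : ℕ} (h : EpmChartAt A J J1 g z n) :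
    EpmChartAt A J' (J1.map e.toAddMonoidHom) g (fun x => z (e.symm x)) n where
  decomp_stable := by
    rintro σ hσ _ ⟨y, hy, rfl⟩
    exact ⟨σ • y, h.decomp_stable σ hσ y hy, he σ y⟩
  mem_nonunits := by
    rintro _ ⟨y, hy, rfl⟩ i
    show z (e.symm (e y)) i ∈ A.nonunits
    rw [e.symm_apply_apply]
    exact h.mem_nonunits y hy i
  injOn := by
    rintro _ ⟨y, hy, rfl⟩ _ ⟨y', hy', rfl⟩ hz
    have hz' : z (e.symm (e y)) = z (e.symm (e y')) := hz
    rw [e.symm_apply_apply, e.symm_apply_apply] at hz'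
    show e y = e y'
    rw [h.injOn y hy y' hy' hz']
  inertia_equivariant := by
    rintro σ hσ _ ⟨y, hy, rfl⟩ i
    show z (e.symm (σ • e y)) i = σ (z (e.symm (e y)) i)
    rw [← he, e.symm_apply_apply, e.symm_apply_apply]
    exact h.inertia_equivariant σ hσ y hy i
  add_approx := by
    intro ϖ hϖ hϖ0 m
    obtain ⟨F, hF, hF'⟩ := h.add_approx ϖ hϖ hϖ0 m
    refine ⟨F, hF, ?_⟩
    rintro _ ⟨y, hy, rfl⟩ _ ⟨y', hy', rfl⟩ h1 h2 i
    have e1 : e.symm (e y) = y := e.symm_apply_apply y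
    have e2 : e.symm (e y') = y' := e.symm_apply_apply y'
    have e3 : e.symm (e y + e y') = y + y' := by
      rw [← map_add, e.symm_apply_apply]
    show ∃ a ∈ A, z (e.symm (e y + e y')) i -
      MvPolynomial.eval (Sum.elim (z (e.symm (e y))) (z (e.symm (e y')))) (F i) = ϖ ^ m * a
    rw [e1, e2, e3]
    refine hF' y hy y' hy' ?_ ?_ i
    · intro i
      have h3 : ∃ a ∈ A, z (e.symm (e y)) i = ϖ * a := h1 i
      rwa [e1] at h3
    · intro i
      have h3 : ∃ a ∈ A, z (e.symm (e y')) i = ϖ * a := h2 i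
      rwa [e2] at h3
  lift := by
    intro x hx
    have hx' : n • e.symm x = 0 := by
      rw [← map_nsmul, hx, map_zero]
    obtain ⟨b, hb, hxb⟩ := h.lift (e.symm x) hx'
    refine ⟨e b, fun σ hσ => ?_, ⟨e.symm x - b, hxb, ?_⟩⟩
    · rw [← he, hb σ hσ]
    · show e (e.symm x - b) = x - e b
      rw [map_sub, e.apply_symm_apply]

/-- An integral model of the Frey curve has nonzero discriminant. -/
theorem epmasm_Δ_ne_zero (P : FreyPackage) (W : WeierstrassCurve ℤ)
    (hW : W.IsIntegralModelOf P.freyCurve) : W.Δ ≠ 0 := by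
  obtain ⟨C, hC⟩ := hW
  intro h0
  have h1 : (C • P.freyCurve).Δ = 0 := by
    rw [hC, WeierstrassCurve.map_Δ, h0, _root_.map_zero]
  rw [WeierstrassCurve.variableChange_Δ] at h1
  have hu : ((C.u⁻¹ : ℚˣ) : ℚ) ^ 12 ≠ 0 := pow_ne_zero _ (Units.ne_zero _)
  exact Fermat.Agent.S13.frey_Δ_ne_zero P ((mul_eq_zero.1 h1).resolve_left hu)

/-- **The second half of `stmtEPeu_of`**: a Hopf lattice of `E[p]` over `ℤ_(p)` and the toric
hypothesis at `A` give the triviality of the peu ramifié subgroup of `A` on `E[p]`. -/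
theorem epmasm_of_lattice (W : WeierstrassCurve ℤ) (hΔ : W.Δ ≠ 0) (p : ℕ) [Fact p.Prime]
    (hp2 : p ≠ 2)
    (H : Subalgebra (ratLocalizedAt p) (ETors W p → AlgebraicClosure ℚ))
    (hH : IsHopfLattice (ratLocalizedAt p) (r38epAct (ETors W p)) H)
    (A : ValuationSubring Qb) (hA : A.LiesOverPrime p)
    (hωA : ∀ σ ∈ A.inertiaSubgroupIn ℚ, ∀ τ ∈ A.inertiaSubgroupIn ℚ, ∀ x : ETors W p,
        τ • (σ • x - x) = cycloExp p τ • (σ • x - x)) :
    ∀ σ ∈ peuSubgroup A p, ∀ x : ETors W p, σ • x = x := by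
  intro σ hσ x
  classical
  have hp : p.Prime := Fact.out
  have hfin := Fermat.Agent.EC.ecflat_finite_torsionBy W hΔ hp.ne_zero
  haveI : Finite (ETors W p) := hfin
  have hpM : ∀ m : ETors W p, p • m = 0 := by
    intro m
    have h := Submodule.smul_torsionBy ((p : ℕ) : ℤ) m
    rwa [natCast_zsmul] at h
  have hcardM : Nat.card (ETors W p) = p ^ 2 := Fermat.Agent.RED.card_torsQbar W hΔ hp.ne_zero
  -- conjugation to `padicPlace p`
  obtain ⟨g, hg⟩ := Fermat.Agent.TW.S.sconjp_exists_smul_eq p hp (padicPlace p) A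
    (lfrobex_liesOverPrime p) hA
  subst hg
  have hω : R38EPHyp p (M := ETors W p) := by
    intro σ₁ hσ₁ τ₁ hτ₁ y
    have h1 := conj_mem_inertiaSubgroupIn (padicPlace p) g σ₁ hσ₁
    have h2 := conj_mem_inertiaSubgroupIn (padicPlace p) g τ₁ hτ₁
    have h := hωA _ h1 _ h2 (g • y)
    rw [r38ep_cycloExp_conj] at h
    have e1 : (g * σ₁ * g⁻¹) • (g • y) - g • y = g • (σ₁ • y - y) := by
      rw [mul_smul, mul_smul, inv_smul_smul, smul_sub]
    rw [e1, mul_smul, mul_smul, inv_smul_smul] at h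
    have e2 : cycloExp p τ₁ • g • (σ₁ • y - y) = g • (cycloExp p τ₁ • (σ₁ • y - y)) := by
      rw [smul_comm]
    rw [e2] at h
    exact smul_left_cancel g h
  have hmain := r38ep_core hp2 stmtEPTeich stmtEPVal stmtEPRoot stmtEPGood H hH hpM hcardM hω
    (g⁻¹ * σ * g) (r38ep_conj_mem_peu (padicPlace p) g σ hσ) (g⁻¹ • x)
  rw [mul_smul, mul_smul, smul_inv_smul] at hmain
  exact smul_left_cancel g⁻¹ hmain

/-- **EPM-ASM**. -/
theorem stmtEpmAsm : StmtEpmAsm := by
  intro hCTL hChart P W hW hdvd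
  haveI : Fact P.p.Prime := ⟨P.pp⟩
  intro A hA hωA
  have hp : P.p.Prime := P.pp
  have hp2 : P.p ≠ 2 := by
    have := P.hp5
    omega
  have hΔ : W.Δ ≠ 0 := epmasm_Δ_ne_zero P W hW
  -- the chart of the Frey curve, transported to the model `W`
  obtain ⟨J1, z, hK⟩ := hChart P hdvd A hA
  obtain ⟨C, hC⟩ := hW
  obtain ⟨e, he⟩ := Fermat.Agent.EC.vc_transport (K := Qb) (W.map (Int.castRingHom ℚ))
    P.freyCurve C hC
  have hK' := epmasm_chart_transport e.symm (fun σ x => by
    apply e.injective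
    rw [he, e.apply_symm_apply, e.apply_symm_apply]) hK
  -- the Hopf lattice of `E[p]`
  have hfin := Fermat.Agent.EC.ecflat_finite_torsionBy W hΔ hp.ne_zero
  have hcont := Fermat.Agent.EC.ecflat_isContAction W hΔ hp.ne_zero
  obtain ⟨Ht, hHt⟩ := hCTL P.p hp A hA _ inferInstance inferInstance _ 1 _ P.p hK' hp.pos
    hfin hcont
  obtain ⟨H, hH⟩ := localToGlobalStatement P.p hp A hA _ inferInstance hfin _ hcont Ht hHt
  exact epmasm_of_lattice W hΔ P.p hp2 H hH A hA hωA

end Fermat.Agent.R38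

end
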