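import Fermat.Agent.R38.EPM.Plan
import Fermat.Agent.W1.ChartToLocal

/-!
# ROW 38, EPEU-MULT, piece EPM-CTL (helper72): `stmtEpmCTL : StmtEpmCTL`

A kernel chart whose lifting property is only known for the points killed by `n`
(`R38.EpmChartAt A J J1 g z n`) gives a local Hopf lattice on `J[n]`.

This is `W1.chartToLocalStatement` (W1/ChartToLocal.lean) with the weaker chart: the lattice is the
same algebra `W1.ctlHt A J1 z n` (generated by the indicator functions of the cosets of `J1` and by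
the coordinate functions `c ↦ σ (z (σ⁻¹ (c - b)))`), and the proofs are those of `ChartToLocal.lean`;
the field `lift` is only ever applied to points of `J[n]`.  The `hK`-free lemmas of
`ChartToLocal.lean` (sections Basic, RankOne, SpanMul, Tensor, the definitions `ctlInd`, `ctlPsi`,
`ctlGen`, `ctlHt`, and `ctl_comul_ind_cut`) are used as they are.
-/

set_option autoImplicit false
set_option linter.style.haveILetI false
set_option linter.unusedSectionVars false
set_option linter.unusedVariables false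

namespace Fermat.Agent.R38

open Polynomial Fermat.Agent.W1
open scoped Pointwise

section Chart

variable (A : ValuationSubring (AlgebraicClosure ℚ)) {J : Type} [AddCommGroup J]
  [DistribMulAction (AlgebraicClosure ℚ ≃ₐ[ℚ] AlgebraicClosure ℚ) J]
  (J1 : AddSubgroup J) {g : ℕ} (z : J → Fin g → AlgebraicClosure ℚ) (n : ℕ)

variable {A J1 z n}
theorem epmctl_smul_mem_iff (hK : EpmChartAt A J J1 g z n)
    {σ : AlgebraicClosure ℚ ≃ₐ[ℚ] AlgebraicClosure ℚ} (hσ : σ ∈ A.decompositionSubgroup ℚ)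
    {x : J} : σ • x ∈ J1 ↔ x ∈ J1 := by
  refine ⟨fun h => ?_, hK.decomp_stable σ hσ x⟩
  have := hK.decomp_stable σ⁻¹ (Subgroup.inv_mem _ hσ) _ h
  rwa [inv_smul_smul] at this

/-- values of `ctlPsi` lie in the maximal ideal -/
theorem epmctl_psi_apply_mem (hK : EpmChartAt A J J1 g z n)
    {σ : AlgebraicClosure ℚ ≃ₐ[ℚ] AlgebraicClosure ℚ} (hσ : σ ∈ A.decompositionSubgroup ℚ)
    (b : J) (i : Fin g) (c : Submodule.torsionBy ℤ J (n : ℤ)) :
    ctlPsi J1 z n σ b i c ∈ A.nonunits := by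
  by_cases h : (c : J) - b ∈ J1
  · rw [ctlPsi_of_mem h]
    apply ctl_decomp_mem_nonunits A hσ
    apply hK.mem_nonunits
    exact (epmctl_smul_mem_iff hK (Subgroup.inv_mem _ hσ)).2 h
  · rw [ctlPsi_of_not_mem h]; exact zero_mem _

/-- (P1) the functions of `Ht` have values in `A` -/
theorem epmctl_integral (hK : EpmChartAt A J J1 g z n) :
    ∀ h ∈ ctlHt A J1 z n, ∀ P : Submodule.torsionBy ℤ J (n : ℤ), h P ∈ A := by
  intro h hh
  induction hh using Algebra.adjoin_induction with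
  | mem f hf =>
    intro P
    rcases hf with ⟨b, rfl⟩ | ⟨σ, hσ, b, -, i, rfl⟩
    · by_cases hc : (P : J) - b ∈ J1
      · rw [ctlInd_of_mem hc]; exact one_mem A
      · rw [ctlInd_of_not_mem hc]; exact zero_mem A
    · exact A.nonunits_subset (epmctl_psi_apply_mem hK hσ b i P)
  | algebraMap r => intro P; exact r.2
  | add x y _ _ hx hy => intro P; exact add_mem (hx P) (hy P)
  | mul x y _ _ hx hy => intro P; exact mul_mem (hx P) (hy P)

/-- inertia acts trivially on `J[tors] / J1` -/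
theorem epmctl_inertia_sub_mem (hK : EpmChartAt A J J1 g z n)
    {γ : AlgebraicClosure ℚ ≃ₐ[ℚ] AlgebraicClosure ℚ} (hγ : γ ∈ A.inertiaSubgroupIn ℚ)
    {x : J} (hx : n • x = 0) : γ • x - x ∈ J1 := by
  obtain ⟨b, hb, hxb⟩ := hK.lift x hx
  have h1 : γ • x - x = γ • (x - b) - (x - b) := by
    rw [smul_sub, hb γ hγ]; abel
  rw [h1]
  exact J1.sub_mem (hK.decomp_stable γ (ctl_inertia_le_decomp A hγ) _ hxb) hxb


theorem epmctl_torsion (c : Submodule.torsionBy ℤ J (n : ℤ)) : n • (c : J) = 0 := by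
  have := (Submodule.mem_torsionBy_iff _ _).1 c.2
  rwa [natCast_zsmul] at this

/-- (P2) `Ht` separates the points of `J[n]` -/
theorem epmctl_separates (hK : EpmChartAt A J J1 g z n) (hn : 0 < n)
    (P Q : Submodule.torsionBy ℤ J (n : ℤ))
    (h : ∀ f ∈ ctlHt A J1 z n, f P = f Q) : P = Q := by
  -- same coset
  have h1 := h _ (ctlInd_mem_ctlHt (A := A) (z := z) (n := n) (J1 := J1) (P : J))
  have hPQ : (Q : J) - (P : J) ∈ J1 := by
    by_contra hne
    rw [ctlInd_of_mem (by rw [sub_self]; exact zero_mem J1), ctlInd_of_not_mem hne] at h1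
    exact one_ne_zero h1
  obtain ⟨b, hb, hPb⟩ := hK.lift (P : J) (epmctl_torsion P)
  have hQb : (Q : J) - b ∈ J1 := by
    have : (Q : J) - b = ((Q : J) - P) + ((P : J) - b) := by abel
    rw [this]; exact J1.add_mem hPQ hPb
  have hz : z ((P : J) - b) = z ((Q : J) - b) := by
    funext i
    have h2 := h _ (ctlPsi_mem_ctlHt (A := A) (z := z) (n := n) (J1 := J1)
      (Subgroup.one_mem _) hb i)
    rw [ctlPsi_of_mem hPb, ctlPsi_of_mem hQb] at h2
    simpa using h2
  have := hK.injOn _ hPb _ hQb hz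
  apply Subtype.ext
  exact sub_left_injective this

/-- (P3) `Ht` is stable under the decomposition group -/
theorem epmctl_decomp_stable (hK : EpmChartAt A J J1 g z n) :
    ∀ τ ∈ A.decompositionSubgroup ℚ, ∀ h ∈ ctlHt A J1 z n,
      (fun P : Submodule.torsionBy ℤ J (n : ℤ) => τ (h (torsAct J (n : ℤ) τ⁻¹ P))) ∈
        ctlHt A J1 z n := by
  intro τ hτ h hh
  have hτ' : τ⁻¹ ∈ A.decompositionSubgroup ℚ := Subgroup.inv_mem _ hτ
  induction hh using Algebra.adjoin_induction with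
  | mem f hf =>
    rcases hf with ⟨b, rfl⟩ | ⟨σ, hσ, b, hb, i, rfl⟩
    · have : (fun P : Submodule.torsionBy ℤ J (n : ℤ) =>
          τ (ctlInd J1 n b (torsAct J (n : ℤ) τ⁻¹ P))) = ctlInd J1 n (τ • b) := by
        funext P
        have hiff : (τ⁻¹ • (P : J) - b ∈ J1) ↔ ((P : J) - τ • b ∈ J1) := by
          rw [← epmctl_smul_mem_iff hK hτ' (x := (P : J) - τ • b), smul_sub, inv_smul_smul]
        by_cases hc : (P : J) - τ • b ∈ J1
        · rw [ctlInd_of_mem hc, ctlInd_of_mem (by rw [ctl_torsAct_coe]; exact hiff.2 hc), map_one]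
        · rw [ctlInd_of_not_mem hc,
            ctlInd_of_not_mem (by rw [ctl_torsAct_coe]; exact fun h' => hc (hiff.1 h')), map_zero]
      rw [this]
      exact ctlInd_mem_ctlHt _
    · have hτb : ∀ γ ∈ A.inertiaSubgroupIn ℚ, γ • (τ • b) = τ • b := by
        intro γ hγ
        have h1 := hb _ (ctl_inertia_conj' A hτ hγ)
        rw [mul_smul, mul_smul] at h1
        have h2 := congrArg (fun x => τ • x) h1
        simpa using h2
      have : (fun P : Submodule.torsionBy ℤ J (n : ℤ) =>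
          τ (ctlPsi J1 z n σ b i (torsAct J (n : ℤ) τ⁻¹ P))) = ctlPsi J1 z n (τ * σ) (τ • b) i := by
        funext P
        have hiff : (τ⁻¹ • (P : J) - b ∈ J1) ↔ ((P : J) - τ • b ∈ J1) := by
          rw [← epmctl_smul_mem_iff hK hτ' (x := (P : J) - τ • b), smul_sub, inv_smul_smul]
        by_cases hc : (P : J) - τ • b ∈ J1
        · rw [ctlPsi_of_mem hc, ctlPsi_of_mem (by rw [ctl_torsAct_coe]; exact hiff.2 hc)]
          have e1 : (τ * σ)⁻¹ • ((P : J) - τ • b) = σ⁻¹ • (τ⁻¹ • (P : J) - b) := by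
            rw [mul_inv_rev, mul_smul, smul_sub, inv_smul_smul]
          rw [e1, ctl_torsAct_coe]; rfl
        · rw [ctlPsi_of_not_mem hc,
            ctlPsi_of_not_mem (by rw [ctl_torsAct_coe]; exact fun h' => hc (hiff.1 h')), map_zero]
      rw [this]
      exact ctlPsi_mem_ctlHt (Subgroup.mul_mem _ hτ hσ) hτb i
  | algebraMap r =>
    have : (fun P : Submodule.torsionBy ℤ J (n : ℤ) =>
        τ ((algebraMap A (Submodule.torsionBy ℤ J (n : ℤ) → AlgebraicClosure ℚ) r)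
          (torsAct J (n : ℤ) τ⁻¹ P))) =
        algebraMap A (Submodule.torsionBy ℤ J (n : ℤ) → AlgebraicClosure ℚ)
          ⟨τ r, ctl_decomp_mem A hτ r.2⟩ := by
      funext P; rfl
    rw [this]
    exact Subalgebra.algebraMap_mem _ _
  | add x y _ _ hx hy =>
    have : (fun P : Submodule.torsionBy ℤ J (n : ℤ) => τ ((x + y) (torsAct J (n : ℤ) τ⁻¹ P))) =
        (fun P => τ (x (torsAct J (n : ℤ) τ⁻¹ P))) + fun P => τ (y (torsAct J (n : ℤ) τ⁻¹ P)) := by
      funext P; simp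
    rw [this]; exact add_mem hx hy
  | mul x y _ _ hx hy =>
    have : (fun P : Submodule.torsionBy ℤ J (n : ℤ) => τ ((x * y) (torsAct J (n : ℤ) τ⁻¹ P))) =
        (fun P => τ (x (torsAct J (n : ℤ) τ⁻¹ P))) * fun P => τ (y (torsAct J (n : ℤ) τ⁻¹ P)) := by
      funext P; simp
    rw [this]; exact mul_mem hx hy


/-- the generators are inertia-equivariant -/
theorem epmctl_gen_equivariant (hK : EpmChartAt A J J1 g z n) (hn : 0 < n)
    {f : Submodule.torsionBy ℤ J (n : ℤ) → AlgebraicClosure ℚ} (hf : f ∈ ctlGen A J1 z n)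
    {γ : AlgebraicClosure ℚ ≃ₐ[ℚ] AlgebraicClosure ℚ} (hγ : γ ∈ A.inertiaSubgroupIn ℚ)
    (P : Submodule.torsionBy ℤ J (n : ℤ)) : f (torsAct J (n : ℤ) γ P) = γ (f P) := by
  have hγD := ctl_inertia_le_decomp A hγ
  have hPP : γ • (P : J) - (P : J) ∈ J1 := epmctl_inertia_sub_mem hK hγ (epmctl_torsion P)
  rcases hf with ⟨b, rfl⟩ | ⟨σ, hσ, b, hb, i, rfl⟩
  · have hiff : (γ • (P : J) - b ∈ J1) ↔ ((P : J) - b ∈ J1) := by
      have e : γ • (P : J) - b = (γ • (P : J) - P) + ((P : J) - b) := by abel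
      rw [e]
      exact ⟨fun h => by simpa using J1.sub_mem h hPP, fun h => J1.add_mem hPP h⟩
    by_cases hc : (P : J) - b ∈ J1
    · rw [ctlInd_of_mem hc, ctlInd_of_mem (by rw [ctl_torsAct_coe]; exact hiff.2 hc), map_one]
    · rw [ctlInd_of_not_mem hc,
        ctlInd_of_not_mem (by rw [ctl_torsAct_coe]; exact fun h' => hc (hiff.1 h')), map_zero]
  · have e : γ • (P : J) - b = γ • ((P : J) - b) := by rw [smul_sub, hb γ hγ]
    have hiff : (γ • (P : J) - b ∈ J1) ↔ ((P : J) - b ∈ J1) := by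
      rw [e]; exact epmctl_smul_mem_iff hK hγD
    by_cases hc : (P : J) - b ∈ J1
    · rw [ctlPsi_of_mem hc, ctlPsi_of_mem (by rw [ctl_torsAct_coe]; exact hiff.2 hc),
        ctl_torsAct_coe, e]
      have hx : σ⁻¹ • ((P : J) - b) ∈ J1 := (epmctl_smul_mem_iff hK (Subgroup.inv_mem _ hσ)).2 hc
      have hγ' := ctl_inertia_conj' A hσ hγ
      have e2 : σ⁻¹ • γ • ((P : J) - b) = (σ⁻¹ * γ * σ) • (σ⁻¹ • ((P : J) - b)) := by
        rw [mul_smul, mul_smul, smul_inv_smul]
      rw [e2, hK.inertia_equivariant _ hγ' _ hx i]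
      show σ ((σ⁻¹ * γ * σ) (z (σ⁻¹ • ((P : J) - b)) i)) = γ (σ (z (σ⁻¹ • ((P : J) - b)) i))
      have e3 : σ * (σ⁻¹ * γ * σ) = γ * σ := by group
      have := congrArg (fun τ : AlgebraicClosure ℚ ≃ₐ[ℚ] AlgebraicClosure ℚ =>
        τ (z (σ⁻¹ • ((P : J) - b)) i)) e3
      exact this
    · rw [ctlPsi_of_not_mem hc,
        ctlPsi_of_not_mem (by rw [ctl_torsAct_coe]; exact fun h' => hc (hiff.1 h')), map_zero]

/-- (P4) `Ht` is spanned by inertia-equivariant functions -/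
theorem epmctl_inertia_span (hK : EpmChartAt A J J1 g z n) (hn : 0 < n) :
    ∀ h ∈ ctlHt A J1 z n, h ∈ Submodule.span A
      {f : Submodule.torsionBy ℤ J (n : ℤ) → AlgebraicClosure ℚ | f ∈ ctlHt A J1 z n ∧
        ∀ σ ∈ A.inertiaSubgroupIn ℚ, ∀ P : Submodule.torsionBy ℤ J (n : ℤ),
          f (torsAct J (n : ℤ) σ P) = σ (f P)} := by
  intro h hh
  induction hh using Algebra.adjoin_induction with
  | mem f hf =>
    exact Submodule.subset_span ⟨Algebra.subset_adjoin hf,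
      fun γ hγ P => epmctl_gen_equivariant hK hn hf hγ P⟩
  | algebraMap r =>
    have h1 : (1 : Submodule.torsionBy ℤ J (n : ℤ) → AlgebraicClosure ℚ) ∈ Submodule.span A
        {f : Submodule.torsionBy ℤ J (n : ℤ) → AlgebraicClosure ℚ | f ∈ ctlHt A J1 z n ∧
          ∀ σ ∈ A.inertiaSubgroupIn ℚ, ∀ P : Submodule.torsionBy ℤ J (n : ℤ),
            f (torsAct J (n : ℤ) σ P) = σ (f P)} :=
      Submodule.subset_span ⟨one_mem _, fun γ _ P => by simp⟩
    have := Submodule.smul_mem _ r h1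
    rwa [Algebra.smul_def, mul_one] at this
  | add x y _ _ hx hy => exact add_mem hx hy
  | mul x y _ _ hx hy =>
    refine ctl_span_mul_mem ?_ hx hy
    rintro a ⟨ha, ha'⟩ b ⟨hb, hb'⟩
    refine ⟨mul_mem ha hb, fun γ hγ P => ?_⟩
    rw [Pi.mul_apply, Pi.mul_apply, ha' γ hγ P, hb' γ hγ P, map_mul]

end Chart

section Comul

variable {A : ValuationSubring (AlgebraicClosure ℚ)} {J : Type} [AddCommGroup J]
  [DistribMulAction (AlgebraicClosure ℚ ≃ₐ[ℚ] AlgebraicClosure ℚ) J]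
  {J1 : AddSubgroup J} {g : ℕ} {z : J → Fin g → AlgebraicClosure ℚ} {n : ℕ}

/-- partition of unity by the cosets of `J1`: it is enough to treat the comultiplication after
cutting down to a coset `b₁ + J1`, `b₁` inertia-fixed, in the first variable -/
theorem epmctl_comul_of_cut (hK : EpmChartAt A J J1 g z n) (hn : 0 < n)
    [Finite (Submodule.torsionBy ℤ J (n : ℤ))]
    (f : Submodule.torsionBy ℤ J (n : ℤ) → AlgebraicClosure ℚ)
    (hf : ∀ b₁ : J, (∀ γ ∈ A.inertiaSubgroupIn ℚ, γ • b₁ = b₁) →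
      (fun PQ : Submodule.torsionBy ℤ J (n : ℤ) × Submodule.torsionBy ℤ J (n : ℤ) =>
        ctlInd J1 n b₁ PQ.1 * f (PQ.1 + PQ.2)) ∈ Submodule.span A (ctlTens A (ctlHt A J1 z n))) :
    (fun PQ : Submodule.torsionBy ℤ J (n : ℤ) × Submodule.torsionBy ℤ J (n : ℤ) =>
      f (PQ.1 + PQ.2)) ∈ Submodule.span A (ctlTens A (ctlHt A J1 z n)) := by
  classical
  -- the subgroup `M ∩ J1` of `M`
  set M1 : AddSubgroup (Submodule.torsionBy ℤ J (n : ℤ)) :=
    J1.comap (Submodule.torsionBy ℤ J (n : ℤ)).subtype.toAddMonoidHom with hM1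
  haveI : Fintype (Submodule.torsionBy ℤ J (n : ℤ) ⧸ M1) := Fintype.ofFinite _
  have hlift : ∀ q : Submodule.torsionBy ℤ J (n : ℤ) ⧸ M1,
      ∃ b : J, (∀ γ ∈ A.inertiaSubgroupIn ℚ, γ • b = b) ∧ ((q.out : J) - b ∈ J1) :=
    fun q => hK.lift _ (epmctl_torsion q.out)
  choose β hβfix hβ using hlift
  have hind : ∀ (q : Submodule.torsionBy ℤ J (n : ℤ) ⧸ M1)
      (P : Submodule.torsionBy ℤ J (n : ℤ)),
      ctlInd J1 n (β q) P = if (QuotientAddGroup.mk P : _ ⧸ M1) = q then 1 else 0 := by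
    intro q P
    have hiff : ((P : J) - β q ∈ J1) ↔ (QuotientAddGroup.mk P : _ ⧸ M1) = q := by
      have h1 : (QuotientAddGroup.mk P : _ ⧸ M1) = q ↔ (P : J) - (q.out : J) ∈ J1 := by
        conv_lhs => rw [← QuotientAddGroup.out_eq' q]
        rw [eq_comm, QuotientAddGroup.eq]
        show (((-q.out + P : Submodule.torsionBy ℤ J (n : ℤ)) : J) ∈ J1) ↔ _
        rw [Submodule.coe_add, Submodule.coe_neg, neg_add_eq_sub]
      rw [h1]
      have e1 : (P : J) - β q = ((P : J) - (q.out : J)) + ((q.out : J) - β q) := by abel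
      rw [e1]
      exact ⟨fun h => by simpa using J1.sub_mem h (hβ q), fun h => J1.add_mem h (hβ q)⟩
    by_cases hc : (P : J) - β q ∈ J1
    · rw [ctlInd_of_mem hc, if_pos (hiff.1 hc)]
    · rw [ctlInd_of_not_mem hc, if_neg (fun h => hc (hiff.2 h))]
  have e : (fun PQ : Submodule.torsionBy ℤ J (n : ℤ) × Submodule.torsionBy ℤ J (n : ℤ) =>
      f (PQ.1 + PQ.2)) =
      ∑ q : Submodule.torsionBy ℤ J (n : ℤ) ⧸ M1,
        (fun PQ : Submodule.torsionBy ℤ J (n : ℤ) × Submodule.torsionBy ℤ J (n : ℤ) =>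
          ctlInd J1 n (β q) PQ.1 * f (PQ.1 + PQ.2)) := by
    funext PQ
    rw [Finset.sum_apply]
    simp only [hind]
    rw [Finset.sum_eq_single (QuotientAddGroup.mk PQ.1 : _ ⧸ M1)]
    · rw [if_pos rfl, one_mul]
    · intro q _ hq
      rw [if_neg (Ne.symm hq), zero_mul]
    · intro h; exact (h (Finset.mem_univ _)).elim
  rw [e]
  exact Submodule.sum_mem _ fun q _ => hf (β q) (hβfix q)


/-- comultiplication of a coordinate function, cut down to a coset in the first variable -/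
theorem epmctl_comul_psi_cut {p : ℕ} (hp : p.Prime) (hA : A.LiesOverPrime p)
    (hK : EpmChartAt A J J1 g z n) (hn : 0 < n) [Finite (Submodule.torsionBy ℤ J (n : ℤ))]
    {σ : AlgebraicClosure ℚ ≃ₐ[ℚ] AlgebraicClosure ℚ} (hσ : σ ∈ A.decompositionSubgroup ℚ)
    {b : J} (hb : ∀ γ ∈ A.inertiaSubgroupIn ℚ, γ • b = b) (i : Fin g)
    (b₁ : J) (hb₁ : ∀ γ ∈ A.inertiaSubgroupIn ℚ, γ • b₁ = b₁) :
    (fun PQ : Submodule.torsionBy ℤ J (n : ℤ) × Submodule.torsionBy ℤ J (n : ℤ) =>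
      ctlInd J1 n b₁ PQ.1 * ctlPsi J1 z n σ b i (PQ.1 + PQ.2)) ∈
      Submodule.span A (ctlTens A (ctlHt A J1 z n)) := by
  classical
  haveI : Fintype (Submodule.torsionBy ℤ J (n : ℤ)) := Fintype.ofFinite _
  have hσ' : σ⁻¹ ∈ A.decompositionSubgroup ℚ := Subgroup.inv_mem _ hσ
  set b₂ : J := b - b₁ with hb₂def
  have hb₂ : ∀ γ ∈ A.inertiaSubgroupIn ℚ, γ • b₂ = b₂ := fun γ hγ => by
    rw [hb₂def, smul_sub, hb γ hγ, hb₁ γ hγ]
  -- Lagrange
  obtain ⟨d, -, hd0, hδ⟩ := ctl_exists_delta (Ht := ctlHt A J1 z n) (epmctl_integral hK)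
    (epmctl_separates hK hn)
  -- the finitely many coordinates that occur
  set v : J → Submodule.torsionBy ℤ J (n : ℤ) × Fin g → AlgebraicClosure ℚ := fun β Pj =>
    if (Pj.1 : J) - β ∈ J1 then z (σ⁻¹ • ((Pj.1 : J) - β)) Pj.2 else 0 with hv
  have hvmem : ∀ β Pj, v β Pj ∈ A.nonunits := by
    intro β Pj
    rw [hv]
    dsimp only
    split_ifs with h
    · exact hK.mem_nonunits _ ((epmctl_smul_mem_iff hK hσ').2 h) _
    · exact zero_mem _
  set S : Finset (AlgebraicClosure ℚ) :=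
    Finset.univ.image (v b₁) ∪ Finset.univ.image (v b₂) with hS
  have hSmem : ∀ s ∈ S, s ∈ A.nonunits := by
    intro s hs
    rcases Finset.mem_union.1 hs with h | h
    · obtain ⟨Pj, -, rfl⟩ := Finset.mem_image.1 h; exact hvmem _ _
    · obtain ⟨Pj, -, rfl⟩ := Finset.mem_image.1 h; exact hvmem _ _
  obtain ⟨ϖ, hϖ, hϖ0, hdiv⟩ := ctl_exists_common_dvd A hp hA S hSmem
  have hσϖ : σ ϖ ∈ A.nonunits := ctl_decomp_mem_nonunits A hσ hϖ
  obtain ⟨N, a₀, ha₀, hN⟩ := ctl_exists_pow_eq_mul A hp hA hσϖ (pow_ne_zero 2 hd0)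
  obtain ⟨F, hFA, hF⟩ := hK.add_approx ϖ hϖ hϖ0 N
  -- main term
  set Main : Submodule.torsionBy ℤ J (n : ℤ) × Submodule.torsionBy ℤ J (n : ℤ) →
      AlgebraicClosure ℚ := fun PQ =>
    ∑ m ∈ (F i).support, σ ((F i).coeff m) *
      ((ctlInd J1 n b₁ PQ.1 * ∏ j, (ctlPsi J1 z n σ b₁ j PQ.1) ^ (m (Sum.inl j))) *
        (ctlInd J1 n b₂ PQ.2 * ∏ j, (ctlPsi J1 z n σ b₂ j PQ.2) ^ (m (Sum.inr j)))) with hMain
  have hMainmem : Main ∈ Submodule.span A (ctlTens A (ctlHt A J1 z n)) := by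
    have e : Main = ∑ m ∈ (F i).support,
        (⟨σ ((F i).coeff m), ctl_decomp_mem A hσ (hFA i m)⟩ : A) •
          (fun PQ : Submodule.torsionBy ℤ J (n : ℤ) × Submodule.torsionBy ℤ J (n : ℤ) =>
            (ctlInd J1 n b₁ * ∏ j, (ctlPsi J1 z n σ b₁ j) ^ (m (Sum.inl j))) PQ.1 *
            (ctlInd J1 n b₂ * ∏ j, (ctlPsi J1 z n σ b₂ j) ^ (m (Sum.inr j))) PQ.2) := by
      funext PQ
      rw [hMain, Finset.sum_apply]
      refine Finset.sum_congr rfl fun m _ => ?_
      simp only [Pi.smul_apply, Pi.mul_apply, Finset.prod_apply, Pi.pow_apply]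
      rfl
    rw [e]
    refine Submodule.sum_mem _ fun m _ => Submodule.smul_mem _ _ (ctl_tens_mem ?_ ?_)
    · exact mul_mem (ctlInd_mem_ctlHt _)
        (Subalgebra.prod_mem _ fun j _ => pow_mem (ctlPsi_mem_ctlHt hσ hb₁ j) _)
    · exact mul_mem (ctlInd_mem_ctlHt _)
        (Subalgebra.prod_mem _ fun j _ => pow_mem (ctlPsi_mem_ctlHt hσ hb₂ j) _)
  -- error term
  set U : Submodule.torsionBy ℤ J (n : ℤ) × Submodule.torsionBy ℤ J (n : ℤ) →
      AlgebraicClosure ℚ := fun PQ =>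
    ctlInd J1 n b₁ PQ.1 * ctlPsi J1 z n σ b i (PQ.1 + PQ.2) with hU
  have hE : ∀ PQ, ∃ a ∈ A, U PQ - Main PQ = d ^ 2 * a := by
    rintro ⟨P, Q⟩
    by_cases hP : (P : J) - b₁ ∈ J1
    swap
    · refine ⟨0, zero_mem A, ?_⟩
      rw [hU, hMain]
      simp only [ctlInd_of_not_mem hP, zero_mul, mul_zero, Finset.sum_const_zero, sub_zero]
    have hsum : ((P + Q : Submodule.torsionBy ℤ J (n : ℤ)) : J) - b =
        ((P : J) - b₁) + ((Q : J) - b₂) := by
      rw [Submodule.coe_add, hb₂def]; abel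
    by_cases hQ : (Q : J) - b₂ ∈ J1
    swap
    · refine ⟨0, zero_mem A, ?_⟩
      have hPQ : ((P + Q : Submodule.torsionBy ℤ J (n : ℤ)) : J) - b ∉ J1 := by
        rw [hsum]
        intro h
        apply hQ
        simpa using J1.sub_mem h hP
      rw [hU, hMain]
      simp only [ctlInd_of_not_mem hQ, ctlPsi_of_not_mem hPQ, zero_mul, mul_zero,
        Finset.sum_const_zero, sub_zero]
    -- both in the cosets
    have hPQ : ((P + Q : Submodule.torsionBy ℤ J (n : ℤ)) : J) - b ∈ J1 := by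
      rw [hsum]; exact J1.add_mem hP hQ
    set x : J := σ⁻¹ • ((P : J) - b₁) with hx
    set y : J := σ⁻¹ • ((Q : J) - b₂) with hy
    have hxJ : x ∈ J1 := (epmctl_smul_mem_iff hK hσ').2 hP
    have hyJ : y ∈ J1 := (epmctl_smul_mem_iff hK hσ').2 hQ
    have hxy : σ⁻¹ • (((P + Q : Submodule.torsionBy ℤ J (n : ℤ)) : J) - b) = x + y := by
      rw [hsum, smul_add]
    have hxdiv : ∀ j, ∃ a ∈ A, z x j = ϖ * a := by
      intro j
      have hmem : v b₁ (P, j) ∈ S :=
        Finset.mem_union_left _ (Finset.mem_image_of_mem _ (Finset.mem_univ _))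
      have hval : v b₁ (P, j) = z x j := by
        rw [hv]; dsimp only; rw [if_pos hP]
      rw [← hval]
      exact hdiv _ hmem
    have hydiv : ∀ j, ∃ a ∈ A, z y j = ϖ * a := by
      intro j
      have hmem : v b₂ (Q, j) ∈ S :=
        Finset.mem_union_right _ (Finset.mem_image_of_mem _ (Finset.mem_univ _))
      have hval : v b₂ (Q, j) = z y j := by
        rw [hv]; dsimp only; rw [if_pos hQ]
      rw [← hval]
      exact hdiv _ hmem
    obtain ⟨a, ha, hFa⟩ := hF x hxJ y hyJ hxdiv hydiv i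
    refine ⟨a₀ * σ a, mul_mem ha₀ (ctl_decomp_mem A hσ ha), ?_⟩
    have hUval : U (P, Q) = σ (z (x + y) i) := by
      rw [hU]
      simp only
      rw [ctlInd_of_mem hP, ctlPsi_of_mem hPQ, one_mul, hxy]
    have hMainval : Main (P, Q) = σ (MvPolynomial.eval (Sum.elim (z x) (z y)) (F i)) := by
      rw [hMain, MvPolynomial.eval_eq', map_sum]
      simp only
      refine Finset.sum_congr rfl fun m _ => ?_
      rw [map_mul, map_prod, Fintype.prod_sum_type, ctlInd_of_mem hP, ctlInd_of_mem hQ,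
        one_mul, one_mul]
      congr 1
      congr 1
      · refine Finset.prod_congr rfl fun j _ => ?_
        rw [map_pow, ctlPsi_of_mem hP]; rfl
      · refine Finset.prod_congr rfl fun j _ => ?_
        rw [map_pow, ctlPsi_of_mem hQ]; rfl
    rw [hUval, hMainval, ← map_sub, hFa, map_mul, map_pow, hN]
    ring
  choose E hEA hEeq using hE
  have hUeq : U = Main + fun PQ => d ^ 2 * E PQ := by
    funext PQ
    rw [Pi.add_apply, ← hEeq PQ]; ring
  show U ∈ _
  rw [hUeq]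
  exact add_mem hMainmem (ctl_delta_sq_mem hδ E hEA)


/-- (P5) `Ht` is closed under the comultiplication -/
theorem epmctl_comul_mem {p : ℕ} (hp : p.Prime) (hA : A.LiesOverPrime p)
    (hK : EpmChartAt A J J1 g z n) (hn : 0 < n) [Finite (Submodule.torsionBy ℤ J (n : ℤ))] :
    ∀ h ∈ ctlHt A J1 z n,
      (fun PQ : Submodule.torsionBy ℤ J (n : ℤ) × Submodule.torsionBy ℤ J (n : ℤ) =>
        h (PQ.1 + PQ.2)) ∈ Submodule.span A (ctlTens A (ctlHt A J1 z n)) := by
  intro h hh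
  induction hh using Algebra.adjoin_induction with
  | mem f hf =>
    rcases hf with ⟨b, rfl⟩ | ⟨σ, hσ, b, hb, i, rfl⟩
    · exact epmctl_comul_of_cut hK hn _ fun b₁ _ => ctl_comul_ind_cut b₁ b
    · exact epmctl_comul_of_cut hK hn _ fun b₁ hb₁ => epmctl_comul_psi_cut hp hA hK hn hσ hb i b₁ hb₁
  | algebraMap r =>
    have e : (fun PQ : Submodule.torsionBy ℤ J (n : ℤ) × Submodule.torsionBy ℤ J (n : ℤ) =>
        (algebraMap A (Submodule.torsionBy ℤ J (n : ℤ) → AlgebraicClosure ℚ) r) (PQ.1 + PQ.2)) =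
        r • (1 : Submodule.torsionBy ℤ J (n : ℤ) × Submodule.torsionBy ℤ J (n : ℤ) →
          AlgebraicClosure ℚ) := by
      funext PQ
      rw [Pi.smul_apply, Pi.one_apply, Algebra.smul_def, mul_one]
      rfl
    rw [e]
    exact Submodule.smul_mem _ _ ctl_tensSpan_one
  | add x y _ _ hx hy =>
    have e : (fun PQ : Submodule.torsionBy ℤ J (n : ℤ) × Submodule.torsionBy ℤ J (n : ℤ) =>
        (x + y) (PQ.1 + PQ.2)) = (fun PQ => x (PQ.1 + PQ.2)) + fun PQ => y (PQ.1 + PQ.2) := by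
      funext PQ; rfl
    rw [e]; exact add_mem hx hy
  | mul x y _ _ hx hy =>
    have e : (fun PQ : Submodule.torsionBy ℤ J (n : ℤ) × Submodule.torsionBy ℤ J (n : ℤ) =>
        (x * y) (PQ.1 + PQ.2)) = (fun PQ => x (PQ.1 + PQ.2)) * fun PQ => y (PQ.1 + PQ.2) := by
      funext PQ; rfl
    rw [e]; exact ctl_tensSpan_mul hx hy

end Comul

/-- **EPM-CTL**: a kernel chart at `n` gives a local Hopf lattice on the finite group `J[n]`. -/
theorem stmtEpmCTL : StmtEpmCTL := by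
  intro p hp A hA J instJ instAct J1 g z n hK hn hfin _
  exact ⟨ctlHt A J1 z n,
    { integral := epmctl_integral hK
      separates := epmctl_separates hK hn
      decomp_stable := epmctl_decomp_stable hK
      inertia_span := epmctl_inertia_span hK hn
      comul_mem := epmctl_comul_mem hp hA hK hn }⟩

end Fermat.Agent.R38
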