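import Fermat.Agent.R38.EPM.Plan
import Fermat.Agent.EC.Flat.Ker
import Fermat.Agent.S15.N3Sub
import Fermat.Agent.S05.Inertia

/-!
# ROW 38, EPEU-MULT, slice (i) of EPM-LIFT (helper72): the kernel chart from a lifting property

`W₀` a Weierstrass curve over `ℚ` whose coefficients lie in the valuation subring `A ⊂ ℚ̄`
(no hypothesis on the reduction type).  `E₁ = {O} ∪ {P : x(P) ∉ A}` is a subgroup of `E(ℚ̄)`
(`S15.n3subKer`), stable under the decomposition group, and `z = -x/y` is an injective,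
inertia-equivariant coordinate `E₁ → 𝔪_A` in which the addition is uniformly approximable
(`EC/Flat/Ker.lean`).  So the only field of `R38.EpmChartAt` which depends on the reduction type
is `lift`:

* `epmcf_chartAt` : `EpmChartAt A E(ℚ̄) (epmcfJ1 …) 1 (epmcfZ W₀) n` from the lifting property for
  the points killed by `n`;
* `epmcf_chart`  : the existential form asked for by EPM-LIFT (helper68).
-/

set_option autoImplicit false

noncomputable section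

namespace Fermat.Agent.R38

open WeierstrassCurve WeierstrassCurve.Affine Fermat.Agent.EC ExtCitation Fermat.Agent.W1
open scoped WeierstrassCurve.Affine

section

variable (W₀ : WeierstrassCurve ℚ) (A : ValuationSubring Qb)

/-- the two kernel predicates (`S15/N3Sub.lean`, `EC/Flat/Ker.lean`) agree -/
theorem epmcf_inKer_iff (P : (W₀⁄Qb).Point) :
    Fermat.Agent.S15.n3subInKer A P ↔ ecflat_InKer A P := by
  cases P <;> exact Iff.rfl

/-- the kernel of reduction `E₁ = {O} ∪ {P : x(P) ∉ A}` as a subgroup of `E(ℚ̄)` -/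
def epmcfJ1 (h₁ : (W₀.baseChange Qb).a₁ ∈ A) (h₂ : (W₀.baseChange Qb).a₂ ∈ A)
    (h₃ : (W₀.baseChange Qb).a₃ ∈ A) (h₄ : (W₀.baseChange Qb).a₄ ∈ A)
    (h₆ : (W₀.baseChange Qb).a₆ ∈ A) : AddSubgroup (W₀⁄Qb).Point :=
  Fermat.Agent.S15.n3subKer A (W₀.baseChange Qb) ⟨h₁, h₂, h₃, h₄, h₆⟩

theorem mem_epmcfJ1 (h₁ : (W₀.baseChange Qb).a₁ ∈ A) (h₂ : (W₀.baseChange Qb).a₂ ∈ A)
    (h₃ : (W₀.baseChange Qb).a₃ ∈ A) (h₄ : (W₀.baseChange Qb).a₄ ∈ A)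
    (h₆ : (W₀.baseChange Qb).a₆ ∈ A) (P : (W₀⁄Qb).Point) :
    P ∈ epmcfJ1 W₀ A h₁ h₂ h₃ h₄ h₆ ↔ ecflat_InKer A P :=
  epmcf_inKer_iff W₀ A P

/-- the coordinate `z = -x/y`, as a map to `Fin 1 → ℚ̄` -/
def epmcfZ (P : (W₀⁄Qb).Point) : Fin 1 → Qb :=
  fun _ => ecflat_z P

/-- **The kernel chart at `n`** of a Weierstrass curve with coefficients in `A`, from the lifting
property for the points killed by `n`. -/
theorem epmcf_chartAt (h₁ : (W₀.baseChange Qb).a₁ ∈ A) (h₂ : (W₀.baseChange Qb).a₂ ∈ A)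
    (h₃ : (W₀.baseChange Qb).a₃ ∈ A) (h₄ : (W₀.baseChange Qb).a₄ ∈ A)
    (h₆ : (W₀.baseChange Qb).a₆ ∈ A) (n : ℕ)
    (hlift : ∀ x : (W₀⁄Qb).Point, n • x = 0 →
      ∃ b : (W₀⁄Qb).Point, (∀ σ ∈ A.inertiaSubgroupIn ℚ, σ • b = b) ∧
        ecflat_InKer A (x - b)) :
    EpmChartAt A (W₀⁄Qb).Point (epmcfJ1 W₀ A h₁ h₂ h₃ h₄ h₆) 1 (epmcfZ W₀) n where
  decomp_stable := by
    intro σ hσ P hP
    rw [mem_epmcfJ1] at hP ⊢
    rcases P with _ | ⟨x, y, h⟩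
    · exact trivial
    · rw [Fermat.Agent.S05.galois_smul_some]
      intro hx
      exact hP ((Fermat.Agent.S05.apply_mem_iff_of_mem_decomposition hσ x).1 hx)
  mem_nonunits := by
    intro P hP i
    rw [mem_epmcfJ1] at hP
    exact ecflat_z_mem_nonunits A h₁ h₂ h₃ h₄ h₆ hP
  injOn := by
    intro P hP Q hQ hz
    rw [mem_epmcfJ1] at hP hQ
    exact ecflat_z_injOn A h₁ h₂ h₃ h₄ h₆ hP hQ (congrFun hz 0)
  inertia_equivariant := by
    intro σ _ P _ i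
    rcases P with _ | ⟨x, y, h⟩
    · show (0 : Qb) = σ 0
      rw [map_zero]
    · rw [Fermat.Agent.S05.galois_smul_some]
      show -(σ x) / σ y = σ (-x / y)
      rw [map_div₀, map_neg]
  add_approx := by
    intro ϖ hϖ _ m
    obtain ⟨F, hF, hadd⟩ := ecflat_add_approx A h₁ h₂ h₃ h₄ h₆ hϖ m
    refine ⟨fun _ => F, fun _ c => hF c, fun P hP Q hQ hzP hzQ i => ?_⟩
    rw [mem_epmcfJ1] at hP hQ
    exact hadd P Q hP hQ (hzP 0) (hzQ 0)
  lift := by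
    intro x hx
    obtain ⟨b, hb, hxb⟩ := hlift x hx
    exact ⟨b, hb, (mem_epmcfJ1 W₀ A h₁ h₂ h₃ h₄ h₆ _).2 hxb⟩

/-- **EPM-LIFT, slice (i)**: existential form. -/
theorem epmcf_chart (h₁ : (W₀.baseChange Qb).a₁ ∈ A) (h₂ : (W₀.baseChange Qb).a₂ ∈ A)
    (h₃ : (W₀.baseChange Qb).a₃ ∈ A) (h₄ : (W₀.baseChange Qb).a₄ ∈ A)
    (h₆ : (W₀.baseChange Qb).a₆ ∈ A) (n : ℕ)
    (hlift : ∀ x : (W₀⁄Qb).Point, n • x = 0 →
      ∃ b : (W₀⁄Qb).Point, (∀ σ ∈ A.inertiaSubgroupIn ℚ, σ • b = b) ∧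
        ecflat_InKer A (x - b)) :
    ∃ (J1 : AddSubgroup (W₀⁄Qb).Point) (z : (W₀⁄Qb).Point → Fin 1 → Qb),
      EpmChartAt A (W₀⁄Qb).Point J1 1 z n :=
  ⟨epmcfJ1 W₀ A h₁ h₂ h₃ h₄ h₆, epmcfZ W₀, epmcf_chartAt W₀ A h₁ h₂ h₃ h₄ h₆ n hlift⟩

end

end Fermat.Agent.R38

end
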