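/-
ROW 38, piece EPEU-MULT (helper68): FINAL.

* `epml_chart`       : the kernel chart (`z = -x/y` on the kernel of reduction) of a Weierstrass
                       curve over `ℚ`, integral at `A`, from the lifting property at `n`;
* `stmtEpmFreyChart` : EPM-LIFT for the Frey curve;
* `stmtEpmFrey`      : **EPEU-MULT** — for any integral model `W` of the Frey curve with
                       `p ∣ abc`, the peu ramifié subgroup at `p` acts trivially on `E[p]`.
-/
import Fermat.Agent.R38.EPM.LiftFrey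
import Fermat.Agent.R38.EPM.CTL
import Fermat.Agent.R38.EPM.Asm
import Fermat.Agent.S15.N3Sub

set_option autoImplicit false
set_option linter.unusedSectionVars false
set_option linter.unusedVariables false

namespace Fermat.Agent.R38

open WeierstrassCurve WeierstrassCurve.Affine Fermat.Agent.S05 Fermat.Agent.EC Fermat.Agent.W1
open scoped WeierstrassCurve.Affine

section Chart

variable (W₀ : WeierstrassCurve ℚ) (A : ValuationSubring Qb)

/-- the kernel of reduction of `W₀⁄ℚ̄` at `A` -/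
noncomputable def epmlJ1 (h₁ : (W₀.baseChange Qb).a₁ ∈ A) (h₂ : (W₀.baseChange Qb).a₂ ∈ A)
    (h₃ : (W₀.baseChange Qb).a₃ ∈ A) (h₄ : (W₀.baseChange Qb).a₄ ∈ A)
    (h₆ : (W₀.baseChange Qb).a₆ ∈ A) : AddSubgroup (W₀⁄Qb).Point where
  carrier := {P | ecflat_InKer A P}
  zero_mem' := trivial
  add_mem' := by
    intro P Q hP hQ
    classical
    have hW : Fermat.Agent.S15.N3Int A (W₀.baseChange Qb) := ⟨h₁, h₂, h₃, h₄, h₆⟩
    have key : ∀ R : (W₀⁄Qb).Point, ecflat_InKer A R ↔ Fermat.Agent.S15.n3subInKer A R := by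
      intro R
      cases R with
      | zero => exact Iff.rfl
      | some x y h => exact Iff.rfl
    exact (key _).2 (Fermat.Agent.S15.n3sub_inKer_add hW ((key P).1 hP) ((key Q).1 hQ))
  neg_mem' := by
    intro P hP
    rcases P with _ | ⟨x, y, h⟩
    · exact hP
    · exact hP

/-- **The kernel chart** from the lifting property. -/
theorem epml_chart (h₁ : (W₀.baseChange Qb).a₁ ∈ A) (h₂ : (W₀.baseChange Qb).a₂ ∈ A)
    (h₃ : (W₀.baseChange Qb).a₃ ∈ A) (h₄ : (W₀.baseChange Qb).a₄ ∈ A)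
    (h₆ : (W₀.baseChange Qb).a₆ ∈ A) (n : ℕ)
    (hlift : ∀ x : (W₀⁄Qb).Point, n • x = 0 →
      ∃ b : (W₀⁄Qb).Point, (∀ σ ∈ A.inertiaSubgroupIn ℚ, σ • b = b) ∧ ecflat_InKer A (x - b)) :
    EpmChartAt A (W₀⁄Qb).Point (epmlJ1 W₀ A h₁ h₂ h₃ h₄ h₆) 1 (fun P _ => ecflat_z P) n where
  decomp_stable := by
    intro σ hσ P hP
    change ecflat_InKer A P at hP
    change ecflat_InKer A (σ • P)
    rcases P with _ | ⟨x, y, h⟩
    · exact trivial
    · rw [galois_smul_some]
      intro hx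
      exact hP ((apply_mem_iff_of_mem_decomposition hσ x).1 hx)
  mem_nonunits := by
    intro P hP i
    exact ecflat_z_mem_nonunits A h₁ h₂ h₃ h₄ h₆ hP
  injOn := by
    intro P hP Q hQ hz
    exact ecflat_z_injOn A h₁ h₂ h₃ h₄ h₆ hP hQ (congrFun hz 0)
  inertia_equivariant := by
    intro σ _ P _ i
    rcases P with _ | ⟨x, y, h⟩
    · show (0 : Qb) = σ 0
      rw [map_zero]
    · rw [galois_smul_some]
      show -(σ x) / σ y = σ (-x / y)
      rw [map_div₀, map_neg]
  add_approx := by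
    intro ϖ hϖ _ m
    classical
    obtain ⟨F, hF, hadd⟩ := ecflat_add_approx A h₁ h₂ h₃ h₄ h₆ hϖ m
    refine ⟨fun _ => F, fun _ c => hF c, fun P hP Q hQ hzP hzQ i => ?_⟩
    exact hadd P Q hP hQ (hzP 0) (hzQ 0)
  lift := hlift

end Chart

/-- **EPM-LIFT**: the kernel chart of the Frey curve at `p` (the hypothesis `p ∣ abc` is not
needed). -/
theorem stmtEpmFreyChart : StmtEpmFreyChart := by
  intro P _ A hA
  have hq2 : P.p ≠ 2 := by
    have := P.hp5
    omega
  obtain ⟨h₁, h₂, h₃, h₄, h₆⟩ := frey_coeff_mem P A P.pp hq2 hA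
  exact ⟨_, _, epml_chart P.freyCurve A h₁ h₂ h₃ h₄ h₆ P.p
    (fun x hx => epml_frey_lift P P.pp hq2 A hA x hx)⟩

/-- **EPEU-MULT.** -/
theorem stmtEpmFrey : StmtEpmFrey := stmtEpmAsm stmtEpmCTL stmtEpmFreyChart

end Fermat.Agent.R38
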