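/-
ROW 38, piece EPEU-MULT / EPM-LIFT (helper68), part 1: lifting at the node, coordinates.

`E` a Weierstrass curve over `ℚ̄` with coefficients in `A` fixed by the inertia group `I` of `A`,
`2` a unit, the 2-division cubic `4 (x - r₁)(x - r₁ - e₂)(x - r₁ - e₃)` with a node at `r₁`
(`v e₂ < 1 = v e₃`).  If `(x, y)` is a point with `v e₂ < v (x - r₁) < 1` and `v (x - r₁) = v c`
for an `I`-fixed `c`, there is an `I`-fixed point `(x', y')` with `v (x' - x) < v (x - r₁)` and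
the same tangent direction `η/(x - r₁)` modulo `𝔪` (the hypotheses of `S05.key_node`).
-/
import Fermat.Agent.R38.EPM.Plan
import Fermat.Agent.S05.FreyFix
import Fermat.Agent.EC.Flat.Chart

set_option autoImplicit false
set_option linter.unusedSectionVars false
set_option linter.unusedVariables false

namespace Fermat.Agent.R38

open WeierstrassCurve WeierstrassCurve.Affine Fermat.Agent.S05 Fermat.Agent.EC Fermat.Agent.W1

section Coord

variable {A : ValuationSubring Qb} {E : WeierstrassCurve Qb}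

/-- a root `y'` over an inertia-fixed `x'` is inertia-fixed if `η'/(x' - r)` is a unit -/
theorem epml_fix_root {σ : Qb ≃ₐ[ℚ] Qb} (hσ : σ ∈ A.inertiaSubgroupIn ℚ)
    (f₁ : σ E.a₁ = E.a₁) (f₂ : σ E.a₂ = E.a₂) (f₃ : σ E.a₃ = E.a₃) (f₄ : σ E.a₄ = E.a₄)
    (f₆ : σ E.a₆ = E.a₆) (h2 : A.valuation (2 : Qb) = 1)
    {x' y' r : Qb} (hE : E.toAffine.Equation x' y') (fx : σ x' = x') (fr : σ r = r)
    (ht : A.valuation (eta E x' y' / (x' - r)) = 1) : σ y' = y' := by
  have heq := (Affine.equation_iff _ _).1 hE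
  have heq' : σ y' ^ 2 + E.a₁ * x' * σ y' + E.a₃ * σ y'
      = x' ^ 3 + E.a₂ * x' ^ 2 + E.a₄ * x' + E.a₆ := by
    have := congrArg σ heq
    simp only [map_add, map_mul, map_pow, f₁, f₂, f₃, f₄, f₆, fx] at this
    exact this
  have hprod : (σ y' - y') * (σ y' + y' + E.a₁ * x' + E.a₃) = 0 := by
    linear_combination heq' - heq
  rcases mul_eq_zero.1 hprod with h | h
  · exact sub_eq_zero.1 h
  · exfalso
    have hσy : σ y' = -y' - E.a₁ * x' - E.a₃ := by linear_combination h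
    have hση : σ (eta E x' y') = -eta E x' y' := by
      simp only [eta, map_add, map_mul, map_ofNat, f₁, f₃, fx, hσy]
      ring
    have hσt : σ (eta E x' y' / (x' - r)) = -(eta E x' y' / (x' - r)) := by
      rw [map_div₀, map_sub, fx, fr, hση, neg_div]
    have htA : eta E x' y' / (x' - r) ∈ A := (A.valuation_le_one_iff _).1 ht.le
    have hm := inertia_apply_sub_mem_nonunits hσ htA
    rw [hσt] at hm
    have e : -(eta E x' y' / (x' - r)) - eta E x' y' / (x' - r)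
        = -(2 * (eta E x' y' / (x' - r))) := by ring
    rw [e, ValuationSubring.mem_nonunits_iff, Valuation.map_neg, map_mul, h2, ht, one_mul] at hm
    exact lt_irrefl _ hm

/-- the square of the tangent direction at the node is `≡ -4 e₃` -/
theorem epml_tangent_sq (h2 : A.valuation (2 : Qb) = 1)
    {r₁ e₂ e₃ : Qb} (hr : RootData E r₁ e₂ e₃)
    (he₃ : A.valuation e₃ = 1) (he₂ : A.valuation e₂ < 1)
    {x y : Qb} (h : E.toAffine.Equation x y)
    (hlow : A.valuation e₂ < A.valuation (x - r₁)) (hlt : A.valuation (x - r₁) < 1) :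
    A.valuation ((eta E x y / (x - r₁)) ^ 2 + 4 * e₃) < 1 ∧
      A.valuation (eta E x y / (x - r₁)) = 1 := by
  classical
  have hX0 : x - r₁ ≠ 0 := by
    intro h0
    rw [h0, map_zero] at hlow
    exact not_lt_zero hlow
  have h4 : A.valuation (4 : Qb) = 1 := key_val_four _ h2
  have hη : eta E x y ^ 2 = 4 * (x - r₁) * (x - r₁ - e₂) * (x - r₁ - e₃) := by
    rw [eta_sq _ h, hr.cub_eq]
  have e : (eta E x y / (x - r₁)) ^ 2 + 4 * e₃
      = 4 * ((x - r₁) - e₂ + e₂ / (x - r₁) * e₃) := by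
    rw [div_pow, hη]
    field_simp
    ring
  have hq : A.valuation (e₂ / (x - r₁)) < 1 := by
    rw [map_div₀]
    exact (div_lt_one₀ (zero_lt_iff.2 ((Valuation.ne_zero_iff _).2 hX0))).2 hlow
  have h1 : A.valuation ((x - r₁) - e₂ + e₂ / (x - r₁) * e₃) < 1 := by
    refine lt_of_le_of_lt (Valuation.map_add _ _ _) (max_lt ?_ ?_)
    · exact lt_of_le_of_lt (Valuation.map_sub _ _ _) (max_lt hlt he₂)
    · rw [map_mul, he₃, mul_one]; exact hq
  have hlt1 : A.valuation ((eta E x y / (x - r₁)) ^ 2 + 4 * e₃) < 1 := by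
    rw [e, map_mul, h4, one_mul]; exact h1
  refine ⟨hlt1, ?_⟩
  have h4e : A.valuation (4 * e₃) = 1 := by rw [map_mul, h4, he₃, one_mul]
  have hsq : A.valuation ((eta E x y / (x - r₁)) ^ 2) = 1 := by
    have e2 : (eta E x y / (x - r₁)) ^ 2
        = ((eta E x y / (x - r₁)) ^ 2 + 4 * e₃) - 4 * e₃ := by ring
    have h3 := Valuation.map_sub_eq_of_lt_right A.valuation
      (x := (eta E x y / (x - r₁)) ^ 2 + 4 * e₃) (y := 4 * e₃) (by rw [h4e]; exact hlt1)
    rw [← e2, h4e] at h3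
    exact h3
  rw [map_pow] at hsq
  exact (pow_eq_one_iff_of_nonneg zero_le (by norm_num)).1 hsq

/-- **Lifting at the node** (coordinates). -/
theorem epml_lift_node {S : Set A} (hS : IsTeich A S)
    (h₁ : E.a₁ ∈ A) (h₂ : E.a₂ ∈ A) (h₃ : E.a₃ ∈ A) (h₄ : E.a₄ ∈ A) (h₆ : E.a₆ ∈ A)
    (f : ∀ σ ∈ A.inertiaSubgroupIn ℚ, σ E.a₁ = E.a₁ ∧ σ E.a₂ = E.a₂ ∧ σ E.a₃ = E.a₃ ∧
      σ E.a₄ = E.a₄ ∧ σ E.a₆ = E.a₆)
    (h2 : A.valuation (2 : Qb) = 1)
    {r₁ e₂ e₃ : Qb} (hr : RootData E r₁ e₂ e₃) (hr₁ : r₁ ∈ A)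
    (fr : ∀ σ ∈ A.inertiaSubgroupIn ℚ, σ r₁ = r₁)
    (he₃ : A.valuation e₃ = 1) (he₂ : A.valuation e₂ < 1)
    {x y : Qb} (h : E.toAffine.Equation x y)
    (hlow : A.valuation e₂ < A.valuation (x - r₁)) (hlt : A.valuation (x - r₁) < 1)
    {c : Qb} (fc : ∀ σ ∈ A.inertiaSubgroupIn ℚ, σ c = c)
    (hval : A.valuation (x - r₁) = A.valuation c) :
    ∃ x' y' : Qb, E.toAffine.Equation x' y' ∧ x' ∈ A ∧
      (∀ σ ∈ A.inertiaSubgroupIn ℚ, σ x' = x' ∧ σ y' = y') ∧
      A.valuation (x' - x) < A.valuation (x - r₁) ∧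
      A.valuation (eta E x y / (x - r₁)) = 1 ∧
      A.valuation (eta E x' y' / (x' - r₁) - eta E x y / (x - r₁)) < 1 := by
  classical
  have hX0 : x - r₁ ≠ 0 := by
    intro h0
    rw [h0, map_zero] at hlow
    exact not_lt_zero hlow
  have hvX0 : A.valuation (x - r₁) ≠ 0 := (Valuation.ne_zero_iff _).2 hX0
  have hvc0 : A.valuation c ≠ 0 := hval ▸ hvX0
  have hc0 : c ≠ 0 := (Valuation.ne_zero_iff _).1 hvc0
  -- the unit `u₀ = (x - r₁)/c` and its Teichmüller representative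
  have hu₀ : A.valuation ((x - r₁) / c) = 1 := by
    rw [map_div₀, hval, div_self hvc0]
  have hu₀A : (x - r₁) / c ∈ A := (A.valuation_le_one_iff _).1 hu₀.le
  obtain ⟨s, hsS, hs⟩ := hS.surj (IsLocalRing.residue A ⟨(x - r₁) / c, hu₀A⟩)
  have hsu : (s : Qb) - (x - r₁) / c ∈ A.nonunits :=
    (Fermat.Agent.RED.residue_eq_iff_sub_mem_nonunits (a := s) (b := ⟨(x - r₁) / c, hu₀A⟩)).1 hs
  have hsu' : A.valuation ((s : Qb) - (x - r₁) / c) < 1 := (A.mem_nonunits_iff).1 hsu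
  -- the new abscissa
  set x' : Qb := r₁ + c * s with hx'
  have hxx : x' - x = c * ((s : Qb) - (x - r₁) / c) := by
    rw [hx']; field_simp; ring
  have hvxx : A.valuation (x' - x) < A.valuation (x - r₁) := by
    rw [hxx, map_mul, hval]
    calc A.valuation c * A.valuation ((s : Qb) - (x - r₁) / c)
        < A.valuation c * 1 := by
          exact mul_lt_mul_of_pos_left hsu' (zero_lt_iff.2 hvc0)
      _ = A.valuation c := mul_one _
  have hX' : x' - r₁ = (x - r₁) + (x' - x) := by ring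
  have hvX' : A.valuation (x' - r₁) = A.valuation (x - r₁) := by
    rw [hX', Valuation.map_add_eq_of_lt_left _ hvxx]
  have hx'A : x' ∈ A := by
    have : x' = r₁ + (x' - r₁) := by ring
    rw [this]
    exact add_mem hr₁ ((A.valuation_le_one_iff _).1 (hvX'.trans_le hlt.le))
  have fx' : ∀ σ ∈ A.inertiaSubgroupIn ℚ, σ x' = x' := by
    intro σ hσ
    rw [hx', map_add, map_mul, fr σ hσ, fc σ hσ, hS.fixed σ hσ s hsS]
  have hlow' : A.valuation e₂ < A.valuation (x' - r₁) := by rw [hvX']; exact hlow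
  have hlt' : A.valuation (x' - r₁) < 1 := by rw [hvX']; exact hlt
  obtain ⟨hT, htu⟩ := epml_tangent_sq h2 hr he₃ he₂ h hlow hlt
  -- a root over `x'` with the right tangent direction
  have hroot : ∃ y' : Qb, E.toAffine.Equation x' y' ∧
      A.valuation (eta E x' y' / (x' - r₁) - eta E x y / (x - r₁)) < 1 := by
    obtain ⟨y₀, hy₀⟩ := ecflat_exists_root_quadratic (E.a₁ * x' + E.a₃)
      (-(x' ^ 3 + E.a₂ * x' ^ 2 + E.a₄ * x' + E.a₆))
    have hE₀ : E.toAffine.Equation x' y₀ := by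
      rw [Affine.equation_iff]; linear_combination hy₀
    have hE₁ : E.toAffine.Equation x' (-y₀ - E.a₁ * x' - E.a₃) := by
      rw [Affine.equation_iff]; linear_combination hy₀
    obtain ⟨hT₀, htu₀⟩ := epml_tangent_sq h2 hr he₃ he₂ hE₀ hlow' hlt'
    have hη₁ : eta E x' (-y₀ - E.a₁ * x' - E.a₃) = -eta E x' y₀ := by
      simp only [eta]; ring
    -- `(t₀ - t)(t₀ + t) ∈ 𝔪`
    have hprod : (eta E x' y₀ / (x' - r₁) - eta E x y / (x - r₁)) *
        (eta E x' y₀ / (x' - r₁) + eta E x y / (x - r₁)) ∈ A.nonunits := by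
      have e : (eta E x' y₀ / (x' - r₁) - eta E x y / (x - r₁)) *
          (eta E x' y₀ / (x' - r₁) + eta E x y / (x - r₁))
          = ((eta E x' y₀ / (x' - r₁)) ^ 2 + 4 * e₃)
            - ((eta E x y / (x - r₁)) ^ 2 + 4 * e₃) := by ring
      rw [e]
      exact sub_mem ((A.mem_nonunits_iff).2 hT₀) ((A.mem_nonunits_iff).2 hT)
    have htA : eta E x y / (x - r₁) ∈ A := (A.valuation_le_one_iff _).1 htu.le
    have ht₀A : eta E x' y₀ / (x' - r₁) ∈ A := (A.valuation_le_one_iff _).1 htu₀.le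
    rcases vs_prime A (sub_mem ht₀A htA) (add_mem ht₀A htA) hprod with hm | hm
    · exact ⟨y₀, hE₀, (A.mem_nonunits_iff).1 hm⟩
    · refine ⟨-y₀ - E.a₁ * x' - E.a₃, hE₁, ?_⟩
      rw [hη₁]
      have e : -eta E x' y₀ / (x' - r₁) - eta E x y / (x - r₁)
          = -(eta E x' y₀ / (x' - r₁) + eta E x y / (x - r₁)) := by ring
      rw [e, Valuation.map_neg]
      exact (A.mem_nonunits_iff).1 hm
  obtain ⟨y', hE', htt⟩ := hroot
  obtain ⟨-, htu'⟩ := epml_tangent_sq h2 hr he₃ he₂ hE' hlow' hlt'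
  refine ⟨x', y', hE', hx'A, fun σ hσ => ⟨fx' σ hσ, ?_⟩, hvxx, htu, htt⟩
  obtain ⟨f₁, f₂, f₃, f₄, f₆⟩ := f σ hσ
  exact epml_fix_root hσ f₁ f₂ f₃ f₄ f₆ h2 hE' (fx' σ hσ) (fr σ hσ) htu'

end Coord

end Fermat.Agent.R38
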