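/-
ROW 38, piece EPEU-MULT / EPM-LIFT (helper68), part 2: lifting of torsion points.

`epml_lift_nonsing` : lifting at a point with nonsingular reduction (coordinates; the proof of
`EC.ecflat_lift` without good reduction).
`epml_local_lift`  : `W₀` over `ℚ`, integral at `A`, 2-division cubic with at most a node at `r₁`
(`v e₂ ≤ 1 = v e₃ = v (e₃ - e₂)`), and `v e₂ = v d ^ p` (`d ∈ ℚ`) in the node case: every point
`P` killed by the odd number `p` is congruent modulo the kernel of reduction to a point fixed by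
the inertia group.
-/
import Fermat.Agent.R38.EPM.LiftNode
import Fermat.Agent.S05.Tropical

set_option autoImplicit false
set_option linter.unusedSectionVars false
set_option linter.unusedVariables false

namespace Fermat.Agent.R38

open WeierstrassCurve WeierstrassCurve.Affine Fermat.Agent.S05 Fermat.Agent.EC Fermat.Agent.W1

section Coord

variable {A : ValuationSubring Qb} {E : WeierstrassCurve Qb}

/-- **Lifting at a point with nonsingular reduction** (coordinates). -/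
theorem epml_lift_nonsing {S : Set A} (hS : IsTeich A S)
    (h₁ : E.a₁ ∈ A) (h₂ : E.a₂ ∈ A) (h₃ : E.a₃ ∈ A) (h₄ : E.a₄ ∈ A) (h₆ : E.a₆ ∈ A)
    (f : ∀ σ ∈ A.inertiaSubgroupIn ℚ, σ E.a₁ = E.a₁ ∧ σ E.a₂ = E.a₂ ∧ σ E.a₃ = E.a₃ ∧
      σ E.a₄ = E.a₄ ∧ σ E.a₆ = E.a₆)
    (h2 : A.valuation (2 : Qb) = 1)
    {x y : Qb} (h : E.toAffine.Equation x y) (hx : x ∈ A)
    (hns : A.valuation (eta E x y) = 1 ∨ A.valuation (dcub E x) = 1) :
    ∃ x' y' : Qb, E.toAffine.Equation x' y' ∧ x' ∈ A ∧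
      (∀ σ ∈ A.inertiaSubgroupIn ℚ, σ x' = x' ∧ σ y' = y') ∧
      A.valuation (x' - x) < 1 ∧ A.valuation (eta E x' y' - eta E x y) < 1 := by
  classical
  have hy : y ∈ A := ecflat_y_mem h₁ h₂ h₃ h₄ h₆ h hx
  have h2A : (2 : Qb) ∈ A := (A.valuation_le_one_iff _).1 h2.le
  have hinert : ∀ σ ∈ A.inertiaSubgroupIn ℚ, ∀ a ∈ A,
      (σ : Qb ≃ₐ[ℚ] Qb).toRingEquiv.toRingHom a - a ∈ A.nonunits :=
    fun σ hσ a ha => inertia_apply_sub_mem_nonunits hσ ha
  -- the conclusion from the two congruences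
  have hfin : ∀ x' y' : Qb, x' - x ∈ A.nonunits → y' - y ∈ A.nonunits →
      A.valuation (x' - x) < 1 ∧ A.valuation (eta E x' y' - eta E x y) < 1 := by
    intro x' y' hxx hyy
    refine ⟨(A.mem_nonunits_iff).1 hxx, (A.mem_nonunits_iff).1 ?_⟩
    have e : eta E x' y' - eta E x y = 2 * (y' - y) + E.a₁ * (x' - x) := by
      simp only [eta]; ring
    rw [e]
    exact add_mem (vs_mul_mem_nonunits A h2A hyy) (vs_mul_mem_nonunits A h₁ hxx)
  by_cases hu : 2 * y + E.a₁ * x + E.a₃ ∈ A.nonunits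
  · -- `η ∈ 𝔪`: the derivative in the `x`-direction is a unit
    have hd : A.valuation (dcub E x) = 1 := by
      rcases hns with h' | h'
      · exfalso
        have : A.valuation (eta E x y) < 1 := (A.mem_nonunits_iff).1 hu
        rw [h'] at this
        exact lt_irrefl _ this
      · exact h'
    have hu' : 3 * x ^ 2 + 2 * E.a₂ * x + E.a₄ - E.a₁ * y ∉ A.nonunits := by
      intro hm
      have e : dcub E x = 2 * (3 * x ^ 2 + 2 * E.a₂ * x + E.a₄ - E.a₁ * y)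
          + E.a₁ * (2 * y + E.a₁ * x + E.a₃) := by
        simp only [dcub, WeierstrassCurve.b₂, WeierstrassCurve.b₄]; ring
      have hm' : dcub E x ∈ A.nonunits := by
        rw [e]
        exact add_mem (vs_mul_mem_nonunits A h2A hm) (vs_mul_mem_nonunits A h₁ hu)
      rw [ValuationSubring.mem_nonunits_iff, hd] at hm'
      exact lt_irrefl _ hm'
    obtain ⟨s, hsS, hs⟩ := hS.surj (IsLocalRing.residue A ⟨y, hy⟩)
    have hsy : (s : Qb) - y ∈ A.nonunits :=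
      (Fermat.Agent.RED.residue_eq_iff_sub_mem_nonunits (a := s) (b := ⟨y, hy⟩)).1 hs
    obtain ⟨x₁, hx₁, hE, hxx⟩ := ecflat_exists_X h₁ h₂ h₃ h₄ h₆ h hx s.2 hsy
    obtain ⟨k1, k2⟩ := hfin x₁ s hxx hsy
    refine ⟨x₁, s, hE, hx₁, fun σ hσ => ⟨?_, hS.fixed σ hσ s hsS⟩, k1, k2⟩
    obtain ⟨f₁, f₂, f₃, f₄, f₆⟩ := f σ hσ
    exact ecflat_fix_X (σ : Qb ≃ₐ[ℚ] Qb).toRingEquiv.toRingHom (hinert σ hσ)
      f₁ f₂ f₃ f₄ f₆ h₁ h₂ hx hx₁ hsy hxx (hS.fixed σ hσ s hsS) hE hu'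
  · -- `η` is a unit
    obtain ⟨s, hsS, hs⟩ := hS.surj (IsLocalRing.residue A ⟨x, hx⟩)
    have hsx : (s : Qb) - x ∈ A.nonunits :=
      (Fermat.Agent.RED.residue_eq_iff_sub_mem_nonunits (a := s) (b := ⟨x, hx⟩)).1 hs
    obtain ⟨y₁, hy₁, hE, hyy⟩ := ecflat_exists_Y h₁ h₂ h₃ h₄ h₆ h hx s.2 hsx
    obtain ⟨k1, k2⟩ := hfin s y₁ hsx hyy
    refine ⟨s, y₁, hE, s.2, fun σ hσ => ⟨hS.fixed σ hσ s hsS, ?_⟩, k1, k2⟩
    obtain ⟨f₁, f₂, f₃, f₄, f₆⟩ := f σ hσ
    exact ecflat_fix_Y (σ : Qb ≃ₐ[ℚ] Qb).toRingEquiv.toRingHom (hinert σ hσ)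
      f₁ f₂ f₃ f₄ f₆ h₁ hy₁ hsx hyy (hS.fixed σ hσ s hsS) hE hu

end Coord

section Pt

variable (A : ValuationSubring Qb)

/-- **Lifting of `p`-torsion points** modulo the kernel of reduction (at most a node at `r₁`,
`v e₂ = v d ^ p` in the node case). -/
theorem epml_local_lift {S : Set A} (hS : IsTeich A S) (W₀ : WeierstrassCurve ℚ)
    (h₁ : (W₀.baseChange Qb).a₁ ∈ A) (h₂ : (W₀.baseChange Qb).a₂ ∈ A)
    (h₃ : (W₀.baseChange Qb).a₃ ∈ A) (h₄ : (W₀.baseChange Qb).a₄ ∈ A)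
    (h₆ : (W₀.baseChange Qb).a₆ ∈ A)
    (h2 : A.valuation (2 : Qb) = 1) (hΔ : (W₀.baseChange Qb).Δ ≠ 0)
    {p : ℕ} (hp : Odd p)
    (r₁ e₂ e₃ : Qb) (fr : ∀ σ : Qb ≃ₐ[ℚ] Qb, σ r₁ = r₁) (hr₁ : r₁ ∈ A)
    (hr : RootData (W₀.baseChange Qb) r₁ e₂ e₃)
    (he₃ : A.valuation e₃ = 1) (he₂₃ : A.valuation (e₃ - e₂) = 1) (he₂ : A.valuation e₂ ≤ 1)
    (hnode : A.valuation e₂ < 1 →
      e₂ ≠ 0 ∧ ∃ d : ℚ, A.valuation e₂ = A.valuation (algebraMap ℚ Qb d) ^ p)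
    (P : (W₀⁄Qb).Point) (htors : p • P = 0) :
    ∃ b : (W₀⁄Qb).Point, (∀ σ ∈ A.inertiaSubgroupIn ℚ, σ • b = b) ∧ ecflat_InKer A (P - b) := by
  classical
  have f : ∀ σ ∈ A.inertiaSubgroupIn ℚ, σ (W₀.baseChange Qb).a₁ = (W₀.baseChange Qb).a₁ ∧
      σ (W₀.baseChange Qb).a₂ = (W₀.baseChange Qb).a₂ ∧
      σ (W₀.baseChange Qb).a₃ = (W₀.baseChange Qb).a₃ ∧
      σ (W₀.baseChange Qb).a₄ = (W₀.baseChange Qb).a₄ ∧
      σ (W₀.baseChange Qb).a₆ = (W₀.baseChange Qb).a₆ :=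
    fun σ _ => ⟨σ.commutes _, σ.commutes _, σ.commutes _, σ.commutes _, σ.commutes _⟩
  obtain ⟨hb₂, hb₄, hb₆, hb₈⟩ := kernel_b_mem A h₁ h₂ h₃ h₄ h₆
  have hvb₂ : A.valuation (W₀.baseChange Qb).b₂ ≤ 1 := (A.valuation_le_one_iff _).2 hb₂
  have hvb₄ : A.valuation (W₀.baseChange Qb).b₄ ≤ 1 := (A.valuation_le_one_iff _).2 hb₄
  rcases P with _ | ⟨x, y, h⟩
  · refine ⟨0, fun σ _ => rfl, ?_⟩
    rw [sub_zero]
    exact trivial
  by_cases hxA : x ∈ A
  swap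
  · refine ⟨0, fun σ _ => rfl, ?_⟩
    rw [sub_zero]
    exact hxA
  have hyA : y ∈ A := ecflat_y_mem h₁ h₂ h₃ h₄ h₆ h.1 hxA
  have hvx : A.valuation x ≤ 1 := (A.valuation_le_one_iff _).2 hxA
  have hηA : eta (W₀.baseChange Qb) x y ∈ A := by
    simp only [eta]
    exact add_mem (add_mem (mul_mem (ofNat_mem A 2) hyA) (mul_mem h₁ hxA)) h₃
  have hvη : A.valuation (eta (W₀.baseChange Qb) x y) ≤ 1 := (A.valuation_le_one_iff _).2 hηA
  -- the endgame
  suffices hmain : ∃ (x' y' : Qb) (h' : (W₀.baseChange Qb).toAffine.Nonsingular x' y'),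
      (∀ σ ∈ A.inertiaSubgroupIn ℚ, σ x' = x' ∧ σ y' = y') ∧
      ((Point.some x' y' h' : (W₀⁄Qb).Point) ≠ Point.some x y h →
        ∃ (x'' y'' : Qb) (h'' : (W₀.baseChange Qb).toAffine.Nonsingular x'' y''),
          (Point.some x' y' h' : (W₀⁄Qb).Point) - Point.some x y h = Point.some x'' y'' h'' ∧
            1 < A.valuation x'') by
    obtain ⟨x', y', h', hfix, hsub⟩ := hmain
    refine ⟨Point.some x' y' h', fun σ hσ =>
      galois_smul_some_eq_self σ h' (hfix σ hσ).1 (hfix σ hσ).2, ?_⟩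
    by_cases hne : (Point.some x' y' h' : (W₀⁄Qb).Point) = Point.some x y h
    · rw [hne, sub_self]
      exact trivial
    · obtain ⟨x'', y'', h'', hQ, hlt⟩ := hsub hne
      have e : (Point.some x y h : (W₀⁄Qb).Point) - Point.some x' y' h'
          = -(Point.some x'' y'' h'') := by rw [← hQ, neg_sub]
      rw [e, Point.neg_some]
      show x'' ∉ A
      intro hx''
      exact absurd ((A.valuation_le_one_iff _).2 hx'') (not_le.2 hlt)
  -- nonsingular reduction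
  have hnonsing : (A.valuation (eta (W₀.baseChange Qb) x y) = 1 ∨
      A.valuation (dcub (W₀.baseChange Qb) x) = 1) →
      ∃ (x' y' : Qb) (h' : (W₀.baseChange Qb).toAffine.Nonsingular x' y'),
      (∀ σ ∈ A.inertiaSubgroupIn ℚ, σ x' = x' ∧ σ y' = y') ∧
      ((Point.some x' y' h' : (W₀⁄Qb).Point) ≠ Point.some x y h →
        ∃ (x'' y'' : Qb) (h'' : (W₀.baseChange Qb).toAffine.Nonsingular x'' y''),
          (Point.some x' y' h' : (W₀⁄Qb).Point) - Point.some x y h = Point.some x'' y'' h'' ∧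
            1 < A.valuation x'') := by
    intro hns
    obtain ⟨x', y', hE', hx'A, hfix, hxx, hηη⟩ :=
      epml_lift_nonsing hS h₁ h₂ h₃ h₄ h₆ f h2 h.1 hxA hns
    have h' : (W₀.baseChange Qb).toAffine.Nonsingular x' y' :=
      (Affine.equation_iff_nonsingular_of_Δ_ne_zero hΔ).1 hE'
    exact ⟨x', y', h', hfix, fun hne =>
      key_nonsing _ hvb₂ hvb₄ h2 h h' hvx hvη hxx hηη hne hns⟩
  have hη_sq : eta (W₀.baseChange Qb) x y ^ 2 = 4 * (x - r₁) * (x - r₁ - e₂) * (x - r₁ - e₃) := by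
    rw [eta_sq _ h.1, hr.cub_eq]
  have hdc := hr.dcub_eq x
  have hs₁ : A.valuation (x - r₁) ≤ 1 := (A.valuation_le_one_iff _).2 (sub_mem hxA hr₁)
  have he₂A : e₂ ∈ A := (A.valuation_le_one_iff _).1 he₂
  have he₃A : e₃ ∈ A := (A.valuation_le_one_iff _).1 he₃.le
  have hs₂ : A.valuation (x - r₁ - e₂) ≤ 1 :=
    (A.valuation_le_one_iff _).2 (sub_mem (sub_mem hxA hr₁) he₂A)
  have hs₃ : A.valuation (x - r₁ - e₃) ≤ 1 :=
    (A.valuation_le_one_iff _).2 (sub_mem (sub_mem hxA hr₁) he₃A)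
  rcases hs₁.lt_or_eq with hlt | heq
  · -- `x ≡ r₁`
    have hs₃' : A.valuation (x - r₁ - e₃) = 1 := by
      rw [Valuation.map_sub_eq_of_lt_right _ (by rw [he₃]; exact hlt), he₃]
    rcases he₂.lt_or_eq with he₂lt | he₂eq
    · -- the node
      obtain ⟨he₂0, d, hd⟩ := hnode he₂lt
      obtain ⟨hlow, k, hk⟩ := tropical_torsion_root A.valuation hr.hb₂ hr.hb₄ hr.hb₆ h2 he₃
        he₂lt he₂0 hp hd h htors hlt
      obtain ⟨x', y', hE', hx'A, hfix, hxx, ht, htt⟩ :=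
        epml_lift_node hS h₁ h₂ h₃ h₄ h₆ f h2 hr hr₁ (fun σ _ => fr σ) he₃ he₂lt h.1 hlow hlt
          (c := (algebraMap ℚ Qb d) ^ (2 * k))
          (fun σ _ => by rw [map_zpow₀, σ.commutes]) hk
      have h' : (W₀.baseChange Qb).toAffine.Nonsingular x' y' :=
        (Affine.equation_iff_nonsingular_of_Δ_ne_zero hΔ).1 hE'
      have hX0 : x - r₁ ≠ 0 := by
        intro h0
        rw [h0, map_zero] at hlow
        exact not_lt_zero hlow
      exact ⟨x', y', h', hfix, fun hne =>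
        key_node _ hvb₂ h2 h h' r₁ hvx ((A.valuation_le_one_iff _).2 hx'A) hX0 hxx ht htt hne⟩
    · -- `e₂` is a unit: no node
      have hs₂' : A.valuation (x - r₁ - e₂) = 1 := by
        rw [Valuation.map_sub_eq_of_lt_right _ (by rw [he₂eq]; exact hlt), he₂eq]
      exact hnonsing (hns_of_two_units A.valuation h2 (η := eta (W₀.baseChange Qb) x y)
        (c := 0) (d := dcub (W₀.baseChange Qb) x) (u₁ := x - r₁ - e₂) (u₂ := x - r₁ - e₃)
        (s := x - r₁) (hη_sq.trans (by ring)) (hdc.trans (by ring)) hs₂' hs₃' hs₁)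
  · -- `x ≢ r₁`
    rcases hs₂.lt_or_eq with hlt₂ | heq₂
    · have hs₃' : A.valuation (x - r₁ - e₃) = 1 := by
        have e : x - r₁ - e₃ = (x - r₁ - e₂) - (e₃ - e₂) := by ring
        rw [e, Valuation.map_sub_eq_of_lt_right _ (by rw [he₂₃]; exact hlt₂), he₂₃]
      exact hnonsing (hns_of_two_units A.valuation h2 (η := eta (W₀.baseChange Qb) x y)
        (c := 0) (d := dcub (W₀.baseChange Qb) x) (u₁ := x - r₁) (u₂ := x - r₁ - e₃)
        (s := x - r₁ - e₂) (hη_sq.trans (by ring)) (hdc.trans (by ring)) heq hs₃' hs₂)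
    · exact hnonsing (hns_of_two_units A.valuation h2 (η := eta (W₀.baseChange Qb) x y)
        (c := 0) (d := dcub (W₀.baseChange Qb) x) (u₁ := x - r₁) (u₂ := x - r₁ - e₂)
        (s := x - r₁ - e₃) (hη_sq.trans (by ring)) (hdc.trans (by ring)) heq heq₂ hs₃)

end Pt

end Fermat.Agent.R38
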