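/-
ROW 38, piece EPEU-MULT / EPM-LIFT (helper68), part 3: the Frey curve.

`epml_frey_lift` : for the Frey curve over `ℚ̄` and a place `A` over an odd prime `q`, every point
killed by `P.p` is congruent modulo the kernel of reduction at `A` to a point fixed by the
inertia group of `A`.  (Good reduction if `q ∤ abc`; a node with `v e₂ = v d ^ p`, `d ∈ {a, b, c}`,
if `q ∣ abc`.  The case `q = P.p` is allowed.)
-/
import Fermat.Agent.R38.EPM.LiftPt
import Fermat.Agent.S04.FreyInt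
import Fermat.Agent.EC.Tate

set_option autoImplicit false
set_option linter.unusedSectionVars false
set_option linter.unusedVariables false

namespace Fermat.Agent.R38

open WeierstrassCurve WeierstrassCurve.Affine Fermat.Agent.S05 Fermat.Agent.EC Fermat.Agent.W1

/-- the discriminant of the Frey curve over `ℚ̄` is nonzero -/
theorem epml_frey_Δ_ne_zero (P : FreyPackage) : (P.freyCurve.baseChange Qb).Δ ≠ 0 := by
  have h := tate_Δ_ne_zero (W := P.freyCurveInt.map (Int.castRingHom ℚ))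
    (tate_map_Δ_ne_zero P.freyCurveInt (Fermat.Agent.S04.freyCurveInt_Δ_ne_zero P))
  rw [Fermat.Agent.S04.freyCurveInt_map] at h
  exact h

/-- **EPM-LIFT for the Frey curve.** -/
theorem epml_frey_lift (P : FreyPackage) {q : ℕ} (hq : q.Prime) (hq2 : q ≠ 2)
    (A : ValuationSubring Qb) (hA : A.LiesOverPrime q)
    (x : (P.freyCurve⁄Qb).Point) (htors : P.p • x = 0) :
    ∃ b : (P.freyCurve⁄Qb).Point,
      (∀ σ ∈ A.inertiaSubgroupIn ℚ, σ • b = b) ∧ ecflat_InKer A (x - b) := by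
  classical
  have hchar := charZero_of_algebraRat Qb
  obtain ⟨S, hS⟩ := stmtTeich q hq A hA
  obtain ⟨h₁, h₂, h₃, h₄, h₆⟩ := frey_coeff_mem P A hq hq2 hA
  have h2 : A.valuation (2 : Qb) = 1 := valuation_two_eq_one A hq hA hq2
  have h4 : A.valuation (4 : Qb) = 1 := valuation_four_eq_one A hq hA hq2
  have hΔ := epml_frey_Δ_ne_zero P
  have hflt := frey_flt_cast P Qb
  have hσint : ∀ (n : ℤ) (σ : Qb ≃ₐ[ℚ] Qb), σ ((n : Qb) ^ P.p / 4) = (n : Qb) ^ P.p / 4 := by
    intro n σ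
    rw [map_div₀, map_pow, galois_fixes_int, map_ofNat]
  have hmem : ∀ n : ℤ, (n : Qb) ^ P.p / 4 ∈ A := by
    intro n
    rw [← A.valuation_le_one_iff, valuation_div_of_eq_one A h4, A.valuation_le_one_iff]
    exact pow_mem (intCast_mem A n) _
  have hvpow : ∀ n : ℤ, A.valuation ((n : Qb) ^ P.p / 4) = A.valuation (n : Qb) ^ P.p := by
    intro n
    rw [valuation_div_of_eq_one A h4, map_pow]
  have hvnpow : ∀ n : ℤ, A.valuation (-((n : Qb) ^ P.p) / 4) = A.valuation (n : Qb) ^ P.p := by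
    intro n
    rw [valuation_div_of_eq_one A h4, Valuation.map_neg, map_pow]
  -- the node hypothesis
  have hnodeHyp : ∀ (n : ℤ) (e₂ : Qb), A.valuation e₂ ≠ 0 →
      A.valuation e₂ = A.valuation (n : Qb) ^ P.p →
      e₂ ≠ 0 ∧ ∃ d : ℚ, A.valuation e₂ = A.valuation (algebraMap ℚ Qb d) ^ P.p := by
    intro n e₂ h0 hval
    refine ⟨(Valuation.ne_zero_iff _).1 h0, (n : ℚ), ?_⟩
    rw [hval]
    congr 2
  rcases frey_cases P hq with ⟨ha, hb, hc⟩ | ⟨ha, hb, hc⟩ | ⟨ha, hb, hc⟩ | ⟨ha, hb, hc⟩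
  · -- good reduction
    refine epml_local_lift A hS P.freyCurve h₁ h₂ h₃ h₄ h₆ h2 hΔ P.hp_odd 0
      ((P.a : Qb) ^ P.p / 4) (-((P.b : Qb) ^ P.p) / 4) (fun σ => map_zero σ) (zero_mem A)
      (frey_rootData_a P Qb) (valuation_neg_pow_div_four_eq_one A hq hq2 hA hb _) ?_
      (valuation_pow_div_four_eq_one A hq hq2 hA ha _).le ?_ x htors
    · have e : -((P.b : Qb) ^ P.p) / 4 - (P.a : Qb) ^ P.p / 4 = -((P.c : Qb) ^ P.p) / 4 := by
        rw [← hflt]; ring
      rw [e]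
      exact valuation_neg_pow_div_four_eq_one A hq hq2 hA hc _
    · intro hlt
      rw [valuation_pow_div_four_eq_one A hq hq2 hA ha _] at hlt
      exact absurd hlt (lt_irrefl _)
  · -- `q ∣ a`
    refine epml_local_lift A hS P.freyCurve h₁ h₂ h₃ h₄ h₆ h2 hΔ P.hp_odd 0
      ((P.a : Qb) ^ P.p / 4) (-((P.b : Qb) ^ P.p) / 4) (fun σ => map_zero σ) (zero_mem A)
      (frey_rootData_a P Qb) (valuation_neg_pow_div_four_eq_one A hq hq2 hA hb _) ?_
      (valuation_pow_div_four_lt_one A hq hq2 hA P.ha0 ha P.hp0).2.le ?_ x htors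
    · have e : -((P.b : Qb) ^ P.p) / 4 - (P.a : Qb) ^ P.p / 4 = -((P.c : Qb) ^ P.p) / 4 := by
        rw [← hflt]; ring
      rw [e]
      exact valuation_neg_pow_div_four_eq_one A hq hq2 hA hc _
    · intro _
      exact hnodeHyp P.a _ (valuation_pow_div_four_lt_one A hq hq2 hA P.ha0 ha P.hp0).1
        (hvpow _)
  · -- `q ∣ b`
    refine epml_local_lift A hS P.freyCurve h₁ h₂ h₃ h₄ h₆ h2 hΔ P.hp_odd 0
      (-((P.b : Qb) ^ P.p) / 4) ((P.a : Qb) ^ P.p / 4) (fun σ => map_zero σ) (zero_mem A)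
      (frey_rootData_b P Qb) (valuation_pow_div_four_eq_one A hq hq2 hA ha _) ?_
      (valuation_neg_pow_div_four_lt_one A hq hq2 hA P.hb0 hb P.hp0).2.le ?_ x htors
    · have e : (P.a : Qb) ^ P.p / 4 - -((P.b : Qb) ^ P.p) / 4 = (P.c : Qb) ^ P.p / 4 := by
        rw [← hflt]; ring
      rw [e]
      exact valuation_pow_div_four_eq_one A hq hq2 hA hc _
    · intro _
      exact hnodeHyp P.b _ (valuation_neg_pow_div_four_lt_one A hq hq2 hA P.hb0 hb P.hp0).1
        (hvnpow _)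
  · -- `q ∣ c`
    refine epml_local_lift A hS P.freyCurve h₁ h₂ h₃ h₄ h₆ h2 hΔ P.hp_odd
      ((P.a : Qb) ^ P.p / 4) (-((P.c : Qb) ^ P.p) / 4) (-((P.a : Qb) ^ P.p) / 4)
      (hσint _) (hmem _) (frey_rootData_c P Qb)
      (valuation_neg_pow_div_four_eq_one A hq hq2 hA ha _) ?_
      (valuation_neg_pow_div_four_lt_one A hq hq2 hA P.hc0 hc P.hp0).2.le ?_ x htors
    · have e : -((P.a : Qb) ^ P.p) / 4 - -((P.c : Qb) ^ P.p) / 4 = (P.b : Qb) ^ P.p / 4 := by
        rw [← hflt]; ring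
      rw [e]
      exact valuation_pow_div_four_eq_one A hq hq2 hA hb _
    · intro _
      exact hnodeHyp P.c _ (valuation_neg_pow_div_four_lt_one A hq hq2 hA P.hc0 hc P.hp0).1
        (hvnpow _)

end Fermat.Agent.R38
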